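import Fermat.Agent.S18.CH04582.TLineGlobal
import Fermat.Agent.S18.H4489.RamChar0

/-!
# S18 / CH0 (helper4582): the `t`-line for the modular function fields `ℚ̄(X₀(N))`

Instantiation of `TLine.lean` / `TLineGlobal.lean` for `F = modularFunctionFieldBar N`, `j = jBar N`
and ANY element `t` of the field satisfying the Hauptmodul relation (`r = 2`: `j t² = (t + 256)³`;
`r = 3`: `j t³ = (t + 27)(t + 243)³`).  The `j`-line data are helper4489's
`Fermat/Agent/S18/H4489/RamChar0.lean` (verbatim) and the landed `Fermat.Agent.S24.ord_eq_one_of_ne`.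
-/

set_option autoImplicit false

namespace Fermat.Agent.S18.CH04582

open AlgebraicCurve IntermediateField ModularCurve
open Fermat.Agent.S24

variable (N : ℕ) [NeZero N]

section jline

variable (v : Place (AlgebraicClosure ℚ) ↥(modularFunctionFieldBar N))

theorem jBar_h0 (h : 0 < v.ord (jBar N)) : v.ord (jBar N) = 1 ∨ v.ord (jBar N) = 3 :=
  Fermat.Agent.S18.H4489.ord_jBar_zero N v h

theorem jBar_h1728 (h : 0 < v.ord (jBar N - 1728)) :
    v.ord (jBar N - 1728) = 1 ∨ v.ord (jBar N - 1728) = 2 := by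
  have e : jBar N - algebraMap (AlgebraicClosure ℚ) ↥(modularFunctionFieldBar N) (1728 : AlgebraicClosure ℚ) = jBar N - 1728 := by rw [map_ofNat]
  have := Fermat.Agent.S18.H4489.ord_jBar_sub_1728 N v (by rw [e]; exact h)
  rwa [e] at this

theorem jBar_hgen (a : AlgebraicClosure ℚ) (h0 : a ≠ 0) (h1 : a ≠ 1728)
    (h : 0 < v.ord (jBar N - algebraMap (AlgebraicClosure ℚ) ↥(modularFunctionFieldBar N) a)) : v.ord (jBar N - algebraMap (AlgebraicClosure ℚ) ↥(modularFunctionFieldBar N) a) = 1 :=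
  ord_eq_one_of_ne N a h0 h1 v h

end jline

section LevelTwo

variable {N}
variable {t : ↥(modularFunctionFieldBar N)} (hrel : jBar N * t ^ 2 = (t + 256) ^ 3)
include hrel

/-- Level `2 ∣ N`-type Hauptmodul: unramified over every finite nonzero `c ≠ -64`. -/
theorem modular_ord_t2_eq_one (v : Place (AlgebraicClosure ℚ) ↥(modularFunctionFieldBar N)) (c : AlgebraicClosure ℚ) (hc0 : c ≠ 0) (hc : c ≠ -64)
    (h : 0 < v.ord (t - algebraMap (AlgebraicClosure ℚ) ↥(modularFunctionFieldBar N) c)) : v.ord (t - algebraMap (AlgebraicClosure ℚ) ↥(modularFunctionFieldBar N) c) = 1 :=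
  ord_t2_eq_one v hrel (jBar_h0 N v) (jBar_h1728 N v) (jBar_hgen N v) c hc0 hc h

/-- Over the elliptic value `t = -64`: index `1` or `2`. -/
theorem modular_ord_t2_star (v : Place (AlgebraicClosure ℚ) ↥(modularFunctionFieldBar N)) (h : 0 < v.ord (t + 64)) :
    v.ord (t + 64) = 1 ∨ v.ord (t + 64) = 2 :=
  ord_t2_star v hrel (jBar_h1728 N v) h

theorem modular_t2_transcendental : Transcendental (AlgebraicClosure ℚ) t :=
  t2_transcendental (jBar_transcendental N) hrel

theorem modular_finiteDimensional_t2 : FiniteDimensional (AlgebraicClosure ℚ)⟮t⟯ ↥(modularFunctionFieldBar N) :=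
  have := finiteDimensional_jBar N
  finiteDimensional_adjoin_t2 (K := AlgebraicClosure ℚ) hrel

/-- `3 [F : ℚ̄(t)] = [SL₂(ℤ) : Γ₀(N)]`. -/
theorem modular_finrank_t2 : 3 * Module.finrank (AlgebraicClosure ℚ)⟮t⟯ ↥(modularFunctionFieldBar N) = Nat.card (Q0 N) := by
  have := finiteDimensional_jBar N
  rw [← finrank_adjoin_t2 (jBar_transcendental N) hrel, finrank_jBar]

end LevelTwo

section LevelThree

variable {N}
variable {t : ↥(modularFunctionFieldBar N)} (hrel : jBar N * t ^ 3 = (t + 27) * (t + 243) ^ 3)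
include hrel

/-- Level `3 ∣ N`-type Hauptmodul: unramified over every finite nonzero `c ≠ -27`. -/
theorem modular_ord_t3_eq_one (v : Place (AlgebraicClosure ℚ) ↥(modularFunctionFieldBar N)) (c : AlgebraicClosure ℚ) (hc0 : c ≠ 0) (hc : c ≠ -27)
    (h : 0 < v.ord (t - algebraMap (AlgebraicClosure ℚ) ↥(modularFunctionFieldBar N) c)) : v.ord (t - algebraMap (AlgebraicClosure ℚ) ↥(modularFunctionFieldBar N) c) = 1 :=
  ord_t3_eq_one v hrel (jBar_h0 N v) (jBar_h1728 N v) (jBar_hgen N v) c hc0 hc h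

/-- Over the elliptic value `t = -27`: index `1` or `3`. -/
theorem modular_ord_t3_star (v : Place (AlgebraicClosure ℚ) ↥(modularFunctionFieldBar N)) (h : 0 < v.ord (t + 27)) :
    v.ord (t + 27) = 1 ∨ v.ord (t + 27) = 3 :=
  ord_t3_star v hrel (jBar_h0 N v) h

theorem modular_t3_transcendental : Transcendental (AlgebraicClosure ℚ) t :=
  t3_transcendental (jBar_transcendental N) hrel

theorem modular_finiteDimensional_t3 : FiniteDimensional (AlgebraicClosure ℚ)⟮t⟯ ↥(modularFunctionFieldBar N) :=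
  have := finiteDimensional_jBar N
  finiteDimensional_adjoin_t3 (K := AlgebraicClosure ℚ) hrel

/-- `4 [F : ℚ̄(t)] = [SL₂(ℤ) : Γ₀(N)]`. -/
theorem modular_finrank_t3 : 4 * Module.finrank (AlgebraicClosure ℚ)⟮t⟯ ↥(modularFunctionFieldBar N) = Nat.card (Q0 N) := by
  have := finiteDimensional_jBar N
  rw [← finrank_adjoin_t3 (jBar_transcendental N) hrel, finrank_jBar]

end LevelThree

end Fermat.Agent.S18.CH04582
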