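import Fermat.Agent.S18.CH04582.BranchCount
import Fermat.Agent.S18.CH04582.TLineMod

/-!
# S18 / CH0 (helper4582): branch values (T_design (D2)), modular instances

Generic glue for a base `K[X] → F`, `X ↦ x` (vocabulary of the DISC skeleton):
* `algebraMap_X_sub_C`, `algebraMap_eq_aeval`;
* `finrank_eq_finrank_adjoin` : `[F : K₀] = [F : K(x)]` for `K₀ = Frac K[X]`;
* `isSeparable_of_charZero`;
* `card_maximal_over_eq_finrank_of_gen` : (D2) in `x`-form.

Modular instances (`F = ℚ̄(X₀(N))`, any `K[X]`-algebra structure with the stated image of `X`):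
* `modular_card_maximal_fin` : `x = j`, `a ∉ {0, 1728}`;
* `modular_card_maximal_inf` : `x = 1/j`, `a ≠ 0`, `1728 a ≠ 1`;
* `modular_card_maximal_t2`, `modular_card_maximal_t3` : `x = t_r` (any `t` with the Hauptmodul
  relation), `c ∉ {0, t*}`;
* `modular_finrank_fin`, `modular_finrank_inf` : `[F : K₀] = [SL₂(ℤ) : Γ₀(N)]`.
-/

set_option autoImplicit false

namespace Fermat.Agent.S18.CH04582

open AlgebraicCurve Polynomial Module IntermediateField
open Fermat.Agent.S24.A564.SO

section GenericX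

variable {K : Type*} [Field K]
    {K₀ : Type*} [Field K₀] [Algebra K[X] K₀] [IsFractionRing K[X] K₀]
    {F : Type*} [Field F] [Algebra K₀ F] [Algebra K[X] F] [IsScalarTower K[X] K₀ F]
    [Algebra K F] [IsScalarTower K K[X] F]

omit [IsFractionRing K[X] K₀] [Algebra K₀ F] [IsScalarTower K[X] K₀ F] in
theorem algebraMap_X_sub_C (x : F) (hx : algebraMap K[X] F X = x) (a : K) :
    algebraMap K[X] F (X - C a) = x - algebraMap K F a := by
  rw [map_sub, hx, ← algebraMap_eq, ← IsScalarTower.algebraMap_apply K K[X] F]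

omit [IsFractionRing K[X] K₀] [Algebra K₀ F] [IsScalarTower K[X] K₀ F] in
theorem algebraMap_eq_aeval (x : F) (hx : algebraMap K[X] F X = x) (p : K[X]) :
    algebraMap K[X] F p = aeval x p := by
  have h : (IsScalarTower.toAlgHom K K[X] F) = aeval x := by
    apply Polynomial.algHom_ext
    rw [aeval_X]
    exact hx
  exact congrArg (fun f : K[X] →ₐ[K] F => f p) h

/-- The image of `K₀ = Frac K[X]` in `F` is `K(x)`. -/
theorem algebraMap_mem_adjoin (x : F) (hx : algebraMap K[X] F X = x) (z : K₀) :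
    algebraMap K₀ F z ∈ K⟮x⟯ := by
  obtain ⟨p, q, hq, rfl⟩ := IsFractionRing.div_surjective (A := K[X]) z
  rw [map_div₀, ← IsScalarTower.algebraMap_apply K[X] K₀ F,
    ← IsScalarTower.algebraMap_apply K[X] K₀ F, algebraMap_eq_aeval x hx, algebraMap_eq_aeval x hx]
  have hmem : ∀ r : K[X], aeval x r ∈ K⟮x⟯ := fun r =>
    (IntermediateField.algebra_adjoin_le_adjoin K {x}) (aeval_mem_adjoin_singleton K x)
  exact div_mem (hmem p) (hmem q)

omit [IsFractionRing K[X] K₀] in
theorem exists_algebraMap_eq_of_mem_adjoin (x : F) (hx : algebraMap K[X] F X = x)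
    (y : F) (hy : y ∈ K⟮x⟯) : ∃ z : K₀, algebraMap K₀ F z = y := by
  have hle : K⟮x⟯ ≤ (algebraMap K₀ F).fieldRange.toIntermediateField (fun c => ⟨algebraMap K[X] K₀
      (algebraMap K K[X] c), by
        rw [← IsScalarTower.algebraMap_apply K[X] K₀ F, ← IsScalarTower.algebraMap_apply K K[X] F]⟩) := by
    rw [IntermediateField.adjoin_le_iff, Set.singleton_subset_iff]
    exact ⟨algebraMap K[X] K₀ X, by rw [← IsScalarTower.algebraMap_apply K[X] K₀ F, hx]⟩
  exact hle hy

/-- `[F : K₀] = [F : K(x)]`. -/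
theorem finrank_eq_finrank_adjoin (x : F) (hx : algebraMap K[X] F X = x) :
    finrank K₀ F = finrank K⟮x⟯ F := by
  let i : K₀ → K⟮x⟯ := fun z => ⟨algebraMap K₀ F z, algebraMap_mem_adjoin x hx z⟩
  have hi : Function.Bijective i := by
    constructor
    · intro z z' h
      exact (algebraMap K₀ F).injective (congrArg Subtype.val h)
    · rintro ⟨y, hy⟩
      obtain ⟨z, hz⟩ := exists_algebraMap_eq_of_mem_adjoin (K₀ := K₀) x hx y hy
      exact ⟨z, Subtype.ext hz⟩
  have h := rank_eq_of_equiv_equiv i (AddEquiv.refl F) hi (fun r m => by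
    show r • m = i r • m
    rw [Algebra.smul_def, IntermediateField.smul_def, smul_eq_mul])
  exact congrArg Cardinal.toNat h

omit [IsFractionRing K[X] K₀] in
theorem finiteDimensional_of_adjoin (x : F) (hx : algebraMap K[X] F X = x)
    [FiniteDimensional K⟮x⟯ F] : FiniteDimensional K₀ F := by
  obtain ⟨s, hs⟩ := (Module.finite_def (R := K⟮x⟯) (M := F)).mp inferInstance
  refine Module.finite_def.mpr ⟨s, ?_⟩
  rw [eq_top_iff] at hs ⊢
  intro y _
  have hy := hs (Submodule.mem_top (x := y))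
  refine Submodule.span_induction (p := fun y _ => y ∈ Submodule.span K₀ (s : Set F))
    (fun y hy => Submodule.subset_span hy) (Submodule.zero_mem _)
    (fun a b _ _ ha hb => Submodule.add_mem _ ha hb) ?_ hy
  intro c a _ ha
  obtain ⟨z, hz⟩ := exists_algebraMap_eq_of_mem_adjoin (K₀ := K₀) x hx c.1 c.2
  have : c • a = z • a := by
    rw [Algebra.smul_def z a, hz, IntermediateField.smul_def, smul_eq_mul]
  rw [this]
  exact Submodule.smul_mem _ z ha

omit [Algebra K F] [IsScalarTower K K[X] F] [Algebra K[X] F] [IsScalarTower K[X] K₀ F] in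
theorem isSeparable_of_charZero [CharZero K] [FiniteDimensional K₀ F] :
    Algebra.IsSeparable K₀ F := by
  have : CharZero K₀ := charZero_of_injective_algebraMap (IsFractionRing.injective K[X] K₀)
  infer_instance

variable [FiniteDimensional K₀ F] [Algebra.IsSeparable K₀ F]
    {O : Type*} [CommRing O] [Algebra K[X] O] [Algebra O F] [IsScalarTower K[X] O F]
    [IsIntegralClosure O K[X] F]

variable (K₀) in
/-- (D2), generic `x`-form. -/
theorem card_maximal_over_eq_finrank_of_gen [IsAlgClosed K] (x : F)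
    (hx : algebraMap K[X] F X = x) (a : K)
    (h : ∀ v : Place K F, 0 < v.ord (x - algebraMap K F a) → v.ord (x - algebraMap K F a) = 1) :
    Nat.card {Q : Ideal O // Q.IsMaximal ∧ algebraMap K[X] O (X - C a) ∈ Q} = finrank K₀ F := by
  refine card_maximal_over_eq_finrank K₀ a (fun v hv => ?_)
  rw [algebraMap_X_sub_C x hx a] at hv ⊢
  exact h v hv

end GenericX

section InvChart

variable {K F : Type*} [Field K] [Field F] [Algebra K F]

/-- The chart `w = 1/x`: a place over `w = a ≠ 0` is a place over `x = 1/a`, with the same index. -/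
theorem ord_inv_sub_eq (v : Place K F) (x : F) (a : K) (ha : a ≠ 0)
    (h : 0 < v.ord (x⁻¹ - algebraMap K F a)) :
    v.ord (x - algebraMap K F a⁻¹) = v.ord (x⁻¹ - algebraMap K F a) := by
  have hxi : v.ord x⁻¹ = 0 := by
    have := ord_aeval_eq_zero v h (X : K[X]) (by rwa [eval_X])
    rwa [aeval_X] at this
  have hx0 : x ≠ 0 := by
    rintro rfl
    rw [inv_zero, zero_sub] at h
    have h0 : v.ord (-(algebraMap K F a)) = 0 := by
      rw [← map_neg]
      exact Place_ord_algebraMap v (-a)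
    omega
  have hne : x⁻¹ - algebraMap K F a ≠ 0 := ne_zero_of_ord_pos v h
  have ha0 : algebraMap K F a ≠ 0 := (_root_.map_ne_zero _).mpr ha
  have hrel : x⁻¹ - algebraMap K F a = algebraMap K F (-a) * ((x - algebraMap K F a⁻¹) * x⁻¹) := by
    rw [map_neg, map_inv₀]
    field_simp
    ring
  have hna : algebraMap K F (-a) ≠ 0 := (_root_.map_ne_zero _).mpr (neg_ne_zero.mpr ha)
  have hd : x - algebraMap K F a⁻¹ ≠ 0 := by
    intro h0
    rw [h0, zero_mul, mul_zero] at hrel
    exact hne hrel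
  rw [hrel, v.ord_mul hna (mul_ne_zero hd (inv_ne_zero hx0)), v.ord_mul hd (inv_ne_zero hx0),
    Place_ord_algebraMap, hxi]
  ring

end InvChart

section Modular

open ModularCurve Fermat.Agent.S24

variable (N : ℕ) [NeZero N]
variable {K₀ : Type*} [Field K₀] [Algebra (AlgebraicClosure ℚ)[X] K₀]
  [IsFractionRing (AlgebraicClosure ℚ)[X] K₀]
  [Algebra K₀ ↥(modularFunctionFieldBar N)]
  [Algebra (AlgebraicClosure ℚ)[X] ↥(modularFunctionFieldBar N)]
  [IsScalarTower (AlgebraicClosure ℚ)[X] K₀ ↥(modularFunctionFieldBar N)]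
  [IsScalarTower (AlgebraicClosure ℚ) (AlgebraicClosure ℚ)[X] ↥(modularFunctionFieldBar N)]
  [FiniteDimensional K₀ ↥(modularFunctionFieldBar N)]
  {O : Type*} [CommRing O] [Algebra (AlgebraicClosure ℚ)[X] O]
  [Algebra O ↥(modularFunctionFieldBar N)]
  [IsScalarTower (AlgebraicClosure ℚ)[X] O ↥(modularFunctionFieldBar N)]
  [IsIntegralClosure O (AlgebraicClosure ℚ)[X] ↥(modularFunctionFieldBar N)]

variable (K₀) (O)

/-- (D2), chart fin (`x = j`): `a ∉ {0, 1728}` is not a branch value. -/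
theorem modular_card_maximal_fin
    (hx : algebraMap (AlgebraicClosure ℚ)[X] ↥(modularFunctionFieldBar N) X = jBar N)
    (a : AlgebraicClosure ℚ) (h0 : a ≠ 0) (h1 : a ≠ 1728) :
    Nat.card {Q : Ideal O // Q.IsMaximal ∧ algebraMap (AlgebraicClosure ℚ)[X] O (X - C a) ∈ Q} =
      finrank K₀ ↥(modularFunctionFieldBar N) := by
  have := isSeparable_of_charZero (K := AlgebraicClosure ℚ) (K₀ := K₀)
    (F := ↥(modularFunctionFieldBar N))
  exact card_maximal_over_eq_finrank_of_gen K₀ (jBar N) hx a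
    (fun v hv => ord_eq_one_of_ne N a h0 h1 v hv)

/-- (D2), chart inf (`x = 1/j`): `a ∉ {0, 1/1728}` is not a branch value. -/
theorem modular_card_maximal_inf
    (hx : algebraMap (AlgebraicClosure ℚ)[X] ↥(modularFunctionFieldBar N) X = (jBar N)⁻¹)
    (a : AlgebraicClosure ℚ) (h0 : a ≠ 0) (h1 : a * 1728 ≠ 1) :
    Nat.card {Q : Ideal O // Q.IsMaximal ∧ algebraMap (AlgebraicClosure ℚ)[X] O (X - C a) ∈ Q} =
      finrank K₀ ↥(modularFunctionFieldBar N) := by
  have := isSeparable_of_charZero (K := AlgebraicClosure ℚ) (K₀ := K₀)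
    (F := ↥(modularFunctionFieldBar N))
  refine card_maximal_over_eq_finrank_of_gen K₀ (jBar N)⁻¹ hx a (fun v hv => ?_)
  rw [← ord_inv_sub_eq v (jBar N) a h0 hv]
  have hai0 : a⁻¹ ≠ 0 := inv_ne_zero h0
  have hai1 : a⁻¹ ≠ 1728 := by
    intro h
    apply h1
    rw [← h, mul_inv_cancel₀ h0]
  refine ord_eq_one_of_ne N a⁻¹ hai0 hai1 v ?_
  rw [ord_inv_sub_eq v (jBar N) a h0 hv]
  exact hv

/-- (D2), `t`-line, `r = 2`: `c ∉ {0, -64}` is not a branch value of `F / ℚ̄(t)`. -/
theorem modular_card_maximal_t2 {t : ↥(modularFunctionFieldBar N)}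
    (hrel : jBar N * t ^ 2 = (t + 256) ^ 3)
    (hx : algebraMap (AlgebraicClosure ℚ)[X] ↥(modularFunctionFieldBar N) X = t)
    (c : AlgebraicClosure ℚ) (hc0 : c ≠ 0) (hc : c ≠ -64) :
    Nat.card {Q : Ideal O // Q.IsMaximal ∧ algebraMap (AlgebraicClosure ℚ)[X] O (X - C c) ∈ Q} =
      finrank K₀ ↥(modularFunctionFieldBar N) := by
  have := isSeparable_of_charZero (K := AlgebraicClosure ℚ) (K₀ := K₀)
    (F := ↥(modularFunctionFieldBar N))
  exact card_maximal_over_eq_finrank_of_gen K₀ t hx c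
    (fun v hv => modular_ord_t2_eq_one hrel v c hc0 hc hv)

/-- (D2), `t`-line, `r = 3`: `c ∉ {0, -27}` is not a branch value of `F / ℚ̄(t)`. -/
theorem modular_card_maximal_t3 {t : ↥(modularFunctionFieldBar N)}
    (hrel : jBar N * t ^ 3 = (t + 27) * (t + 243) ^ 3)
    (hx : algebraMap (AlgebraicClosure ℚ)[X] ↥(modularFunctionFieldBar N) X = t)
    (c : AlgebraicClosure ℚ) (hc0 : c ≠ 0) (hc : c ≠ -27) :
    Nat.card {Q : Ideal O // Q.IsMaximal ∧ algebraMap (AlgebraicClosure ℚ)[X] O (X - C c) ∈ Q} =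
      finrank K₀ ↥(modularFunctionFieldBar N) := by
  have := isSeparable_of_charZero (K := AlgebraicClosure ℚ) (K₀ := K₀)
    (F := ↥(modularFunctionFieldBar N))
  exact card_maximal_over_eq_finrank_of_gen K₀ t hx c
    (fun v hv => modular_ord_t3_eq_one hrel v c hc0 hc hv)

omit [FiniteDimensional K₀ ↥(modularFunctionFieldBar N)] in
/-- Degree over the `j`-line. -/
theorem modular_finrank_fin
    (hx : algebraMap (AlgebraicClosure ℚ)[X] ↥(modularFunctionFieldBar N) X = jBar N) :
    finrank K₀ ↥(modularFunctionFieldBar N) = Nat.card (Q0 N) := by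
  rw [finrank_eq_finrank_adjoin (jBar N) hx, finrank_jBar]

end Modular

end Fermat.Agent.S18.CH04582
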