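import Fermat.Agent.S18.DefsMod
import Fermat.Agent.S18.CH04582.BranchMod

/-!
# S18 / CH0 (helper4582): `ord_jb_inv_sub_eq_one` of `TInt.lean` (helper2926 v0), VERBATIM

(D2) for the chart at infinity: the places of `Fb N` over `1/j = c`, `c ≠ 0`, `1728 c ≠ 1`, are
unramified.  Also the chart-fin form for `jb N` (`= S24.jBar N` by `rfl`).
-/

set_option autoImplicit false

namespace Fermat.Agent.S18.CH04582

open ModularCurve AlgebraicCurve Fermat.Agent.S18

variable (N : ℕ) [NeZero N]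

theorem jb_eq_jBar : jb N = Fermat.Agent.S24.jBar N := rfl

/-- chart fin, in the `jb` vocabulary (= landed `S24.ord_eq_one_of_ne`). -/
theorem ord_jb_sub_eq_one (c : AlgebraicClosure ℚ) (h0 : c ≠ 0) (h1 : c ≠ 1728)
    (v : Place (AlgebraicClosure ℚ) (Fb N))
    (hv : 0 < v.ord (jb N - algebraMap (AlgebraicClosure ℚ) (Fb N) c)) :
    v.ord (jb N - algebraMap (AlgebraicClosure ℚ) (Fb N) c) = 1 :=
  Fermat.Agent.S24.ord_eq_one_of_ne N c h0 h1 v hv

/-- **CH0 (D2), chart inf**: exact statement of `Fermat.Agent.S18.ord_jb_inv_sub_eq_one`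
(TInt.lean v0 of helper2926). -/
theorem ord_jb_inv_sub_eq_one (c : AlgebraicClosure ℚ) (hc : c ≠ 0) (hc' : 1728 * c ≠ 1)
    (v : Place (AlgebraicClosure ℚ) (Fb N))
    (hv : 0 < v.ord ((jb N)⁻¹ - algebraMap (AlgebraicClosure ℚ) (Fb N) c)) :
    v.ord ((jb N)⁻¹ - algebraMap (AlgebraicClosure ℚ) (Fb N) c) = 1 := by
  have hci0 : c⁻¹ ≠ 0 := inv_ne_zero hc
  have hci1 : c⁻¹ ≠ 1728 := by
    intro h
    apply hc'
    rw [← h, inv_mul_cancel₀ hc]
  have he := ord_inv_sub_eq v (jb N) c hc hv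
  rw [← he]
  exact ord_jb_sub_eq_one N c⁻¹ hci0 hci1 v (by rw [he]; exact hv)

end Fermat.Agent.S18.CH04582
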