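import Fermat.Agent.S18.CH04582.UnbranchedL
import Fermat.Agent.S18.CH04582.D2Inf

/-!
# S18 / CH0 (helper4582): the `Unbranched` / `UnbranchedL` hypotheses of `spec_poly` / `spec_laurent`
for the modular fields (TInt.lean v0 of helper2926), i.e. (D2) + (D4) of `notes/S18_T_design.md`
in the exact vocabulary consumed by the T assembly.

* `modular_unbranched_fin` : chart fin, `x = jb N`, `c ∉ {0, 1728}`;
* `modular_unbranched_inf` : chart inf, `x = (jb N)⁻¹`, `c ≠ 0`, `1728 c ≠ 1`
  (+ `transcendental_jb_inv`, `finiteDimensional_jb_inv`, `finrank_jb_inv`);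
* `modular_unbranchedL_t2`, `modular_unbranchedL_t3` : CASE A, `x = t` any element of `Fb N` with
  `jb N * t ^ 2 = (t + 256) ^ 3` resp. `jb N * t ^ 3 = (t + 27) * (t + 243) ^ 3`, `c ∉ {0, t*}`.

Sorry-free on the frozen `rt_*` statements of `RT.lean` (via `unbranched_of_ord`, `unbranchedL_of_ord`).
-/

set_option autoImplicit false

namespace Fermat.Agent.S18.CH04582

open AlgebraicCurve IntermediateField ModularCurve Fermat.Agent.S18

section InvGeneric

variable {K F : Type*} [Field K] [Field F] [Algebra K F]

theorem adjoin_inv_eq (x : F) : K⟮x⁻¹⟯ = K⟮x⟯ := by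
  apply le_antisymm
  · rw [IntermediateField.adjoin_le_iff, Set.singleton_subset_iff]
    exact inv_mem (IntermediateField.mem_adjoin_simple_self K x)
  · rw [IntermediateField.adjoin_le_iff, Set.singleton_subset_iff]
    have h := inv_mem (IntermediateField.mem_adjoin_simple_self K x⁻¹)
    rwa [inv_inv] at h

theorem transcendental_inv {x : F} (hx : Transcendental K x) : Transcendental K x⁻¹ := by
  intro h
  apply hx
  have := h.inv
  rwa [inv_inv] at this

/-- Finite extensions in characteristic zero are separable (explicit, to avoid slow instance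
search on the concrete modular fields). -/
theorem isSeparable_of_finite_charZero [CharZero K] (E : IntermediateField K F)
    [FiniteDimensional E F] : Algebra.IsSeparable E F := by
  have : CharZero E := charZero_of_injective_algebraMap (algebraMap K E).injective
  have : Algebra.IsAlgebraic E F := Algebra.IsAlgebraic.of_finite E F
  exact Algebra.IsAlgebraic.isSeparable_of_perfectField

end InvGeneric

section Modular

variable (N : ℕ) [NeZero N]

theorem transcendental_jb : Transcendental (AlgebraicClosure ℚ) (jb N) :=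
  Fermat.Agent.S24.jBar_transcendental N

theorem finiteDimensional_jb : FiniteDimensional (AlgebraicClosure ℚ)⟮jb N⟯ (Fb N) :=
  Fermat.Agent.S24.finiteDimensional_jBar N

theorem transcendental_jb_inv : Transcendental (AlgebraicClosure ℚ) (jb N)⁻¹ :=
  transcendental_inv (transcendental_jb N)

theorem finiteDimensional_jb_inv : FiniteDimensional (AlgebraicClosure ℚ)⟮(jb N)⁻¹⟯ (Fb N) := by
  have := finiteDimensional_jb N
  exact finiteDimensional_of_le (adjoin_inv_eq (K := AlgebraicClosure ℚ) (jb N)).ge

omit [NeZero N] in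
theorem finrank_jb_inv :
    Module.finrank (AlgebraicClosure ℚ)⟮(jb N)⁻¹⟯ (Fb N) =
      Module.finrank (AlgebraicClosure ℚ)⟮jb N⟯ (Fb N) := by
  rw [adjoin_inv_eq]

/-- (D2), chart fin: `c ∉ {0, 1728}` is not a branch value of `j`. -/
theorem modular_unbranched_fin (c : AlgebraicClosure ℚ) (h0 : c ≠ 0) (h1 : c ≠ 1728) :
    Unbranched (AlgebraicClosure ℚ) (jb N) c := by
  have := finiteDimensional_jb N
  have := isSeparable_of_finite_charZero (AlgebraicClosure ℚ)⟮jb N⟯
  exact unbranched_of_ord (jb N) (transcendental_jb N) c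
    (fun v hv => ord_jb_sub_eq_one N c h0 h1 v hv)

/-- (D2), chart inf: `c ∉ {0, 1/1728}` is not a branch value of `1/j`. -/
theorem modular_unbranched_inf (c : AlgebraicClosure ℚ) (hc : c ≠ 0) (hc' : 1728 * c ≠ 1) :
    Unbranched (AlgebraicClosure ℚ) (jb N)⁻¹ c := by
  have := finiteDimensional_jb_inv N
  have := isSeparable_of_finite_charZero (AlgebraicClosure ℚ)⟮(jb N)⁻¹⟯
  exact unbranched_of_ord (jb N)⁻¹ (transcendental_jb_inv N) c
    (fun v hv => ord_jb_inv_sub_eq_one N c hc hc' v hv)

/-- (D4), CASE A, `r = 2`: `c ∉ {0, -64}` is not a branch value of the `t`-line. -/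
theorem modular_unbranchedL_t2 {t : Fb N} (hrel : jb N * t ^ 2 = (t + 256) ^ 3)
    (c : AlgebraicClosure ℚ) (hc0 : c ≠ 0) (hc : c ≠ -64) :
    UnbranchedL (AlgebraicClosure ℚ) t c := by
  have := modular_finiteDimensional_t2 (N := N) hrel
  have := isSeparable_of_finite_charZero (AlgebraicClosure ℚ)⟮t⟯
  exact unbranchedL_of_ord t (modular_t2_transcendental (N := N) hrel) c
    (fun v hv => modular_ord_t2_eq_one (N := N) hrel v c hc0 hc hv)

/-- (D4), CASE A, `r = 3`: `c ∉ {0, -27}` is not a branch value of the `t`-line. -/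
theorem modular_unbranchedL_t3 {t : Fb N} (hrel : jb N * t ^ 3 = (t + 27) * (t + 243) ^ 3)
    (c : AlgebraicClosure ℚ) (hc0 : c ≠ 0) (hc : c ≠ -27) :
    UnbranchedL (AlgebraicClosure ℚ) t c := by
  have := modular_finiteDimensional_t3 (N := N) hrel
  have := isSeparable_of_finite_charZero (AlgebraicClosure ℚ)⟮t⟯
  exact unbranchedL_of_ord t (modular_t3_transcendental (N := N) hrel) c
    (fun v hv => modular_ord_t3_eq_one (N := N) hrel v c hc0 hc hv)

end Modular

end Fermat.Agent.S18.CH04582
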