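import Fermat.Agent.S24.A564.SumOrd

/-!
# S18 / CH0 (helper4582): branch values, generic part  (T_design (D2))

Vocabulary of the DISC skeleton (`rootMultiplicity_discr_add_card` of helper322 `Skel/Disc.lean`):
`K` algebraically closed, `K₀ = Frac K[X]`, `F / K₀` finite separable, `O` the integral closure of
`K[X]` in `F`.  For `a : K` the maximal ideals of `O` over `X - a` correspond to the places `v` of
`F / K` with `0 < ord_v (x - a)`, the ramification index being `ord_v (x - a)`; hence

* `exists_finset_places_over` : the places over `x = a` form a finite set `S`, with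
  `∑_{v ∈ S} ord_v (x - a) = [F : K₀]` and `#S = #{Q maximal, X - a ∈ Q}`;
* `card_maximal_over_eq_finrank` : if every place over `x = a` is unramified then
  `#{Q maximal, X - a ∈ Q} = [F : K₀]`   (= "`a` is not a branch value", (D2));
* `card_maximal_over_le_finrank`, `card_maximal_over_eq_finrank_iff`.
-/

set_option autoImplicit false

namespace Fermat.Agent.S18.CH04582

open AlgebraicCurve IsDedekindDomain WithZero Polynomial Module
open Fermat.Agent.S24.A564.SO

section Generic

variable {K : Type*} [Field K]
    {K₀ : Type*} [Field K₀] [Algebra K[X] K₀] [IsFractionRing K[X] K₀]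
    {F : Type*} [Field F] [Algebra K₀ F] [Algebra K[X] F] [IsScalarTower K[X] K₀ F]
    [FiniteDimensional K₀ F] [Algebra.IsSeparable K₀ F]
    {O : Type*} [CommRing O] [Algebra K[X] O] [Algebra O F] [IsScalarTower K[X] O F]
    [IsIntegralClosure O K[X] F]
    [Algebra K F] [IsScalarTower K K[X] F]

theorem span_X_sub_C_isMaximal (a : K) : (Ideal.span {(X - C a : K[X])}).IsMaximal :=
  PrincipalIdealRing.isMaximal_of_irreducible (irreducible_X_sub_C a)

theorem exists_const_sub_mem_span_X_sub_C (a : K) (r : K[X]) :
    ∃ c : K, r - algebraMap K K[X] c ∈ Ideal.span {(X - C a : K[X])} := by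
  refine ⟨r.eval a, ?_⟩
  rw [Ideal.mem_span_singleton, ← C_eq_algebraMap]
  exact X_sub_C_dvd_sub_C_eval

variable (K₀) (O) in
/-- The places of `F` over `x = a`: finiteness, fundamental identity `∑ e = n`, and their number
equals the number of maximal ideals of the integral closure over `X - a`. -/
theorem exists_finset_places_over [IsAlgClosed K] (a : K) :
    ∃ S : Finset (Place K F),
      (∀ v, v ∈ S ↔ 0 < v.ord (algebraMap K[X] F (X - C a))) ∧
      ∑ v ∈ S, v.ord (algebraMap K[X] F (X - C a)) = (finrank K₀ F : ℤ) ∧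
      S.card = Nat.card {Q : Ideal O // Q.IsMaximal ∧ algebraMap K[X] O (X - C a) ∈ Q} := by
  classical
  have hinjF : Function.Injective (algebraMap K[X] F) := by
    rw [IsScalarTower.algebraMap_eq K[X] K₀ F]
    exact (algebraMap K₀ F).injective.comp (IsFractionRing.injective K[X] K₀)
  have hinjO : Function.Injective (algebraMap K[X] O) := by
    intro x y hxy
    apply hinjF
    rw [IsScalarTower.algebraMap_apply K[X] O F, hxy, ← IsScalarTower.algebraMap_apply K[X] O F]
  have : IsDomain O := (IsIntegralClosure.algebraMap_injective O K[X] F).isDomain _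
  have : FaithfulSMul K[X] O := (faithfulSMul_iff_algebraMap_injective K[X] O).mpr hinjO
  have : IsDedekindDomain O := IsIntegralClosure.isDedekindDomain K[X] K₀ F O
  have : IsFractionRing O F := IsIntegralClosure.isFractionRing_of_finite_extension K[X] K₀ F O
  have : Module.Finite K[X] O := IsIntegralClosure.finite K[X] K₀ F O
  let _ : Algebra K O := ((algebraMap K[X] O).comp (algebraMap K K[X])).toAlgebra
  have : IsScalarTower K K[X] O := IsScalarTower.of_algebraMap_eq (fun c => rfl)
  have : IsScalarTower K O F := IsScalarTower.of_algebraMap_eq (fun c => by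
    show algebraMap K F c = algebraMap O F (algebraMap K[X] O (algebraMap K K[X] c))
    rw [← IsScalarTower.algebraMap_apply K[X] O F, ← IsScalarTower.algebraMap_apply K K[X] F])
  set t : K[X] := X - C a with ht
  set p : Ideal K[X] := Ideal.span {t} with hp
  have hpmax : p.IsMaximal := span_X_sub_C_isMaximal a
  have ht0 : t ≠ 0 := X_sub_C_ne_zero a
  have hp0 : p ≠ ⊥ := by
    rw [Ne, Ideal.span_singleton_eq_bot]
    exact ht0
  have htF0 : algebraMap K[X] F t ≠ 0 := fun h => ht0 (hinjF (by rw [h, map_zero]))
  have htO0 : algebraMap K[X] O t ≠ 0 := fun h => ht0 (hinjO (by rw [h, map_zero]))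
  have hsum := Ideal.sum_ramification_inertia O K₀ F (p := p) hp0
  have hmemP : ∀ P ∈ IsDedekindDomain.primesOverFinset p O, P.IsPrime ∧ P.LiesOver p := fun P hP =>
    (IsDedekindDomain.mem_primesOverFinset_iff hp0 _).mp hP
  have hPne : ∀ P ∈ IsDedekindDomain.primesOverFinset p O, P ≠ ⊥ := fun P hP =>
    have := (hmemP P hP).2
    Ideal.ne_bot_of_liesOver_of_ne_bot hp0 P
  let Φ : {P // P ∈ IsDedekindDomain.primesOverFinset p O} → Place K F := fun P =>
    Place.ofHeightOneSpectrum (K := K) ⟨P.1, (hmemP P.1 P.2).1, hPne P.1 P.2⟩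
  have htF : algebraMap O F (algebraMap K[X] O t) = algebraMap K[X] F t :=
    (IsScalarTower.algebraMap_apply K[X] O F t).symm
  have hord : ∀ P : {P // P ∈ IsDedekindDomain.primesOverFinset p O},
      (Φ P).ord (algebraMap K[X] F t) = (p.ramificationIdx' P.1 : ℤ) := by
    intro P
    show (Place.ofHeightOneSpectrum (K := K) (F := F) _).ord (algebraMap K[X] F t) = _
    rw [Place_ofHeightOneSpectrum_ord, ← htF]
    exact ramificationIdx'_eq_neg_log_valuation (F := F) t
      ⟨P.1, (hmemP P.1 P.2).1, hPne P.1 P.2⟩ htO0
  have hinert : ∀ P ∈ IsDedekindDomain.primesOverFinset p O, p.inertiaDeg' P = 1 := fun P hP => by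
    have := (hmemP P hP).1
    have := (hmemP P hP).2
    exact inertiaDeg'_eq_one_of_isAlgClosed (K := K) p P (exists_const_sub_mem_span_X_sub_C a)
  have hΦinj : Function.Injective Φ := by
    intro P P' h
    have := Place_ofHeightOneSpectrum_injective (K := K) (F := F) h
    exact Subtype.ext (congrArg HeightOneSpectrum.asIdeal this)
  refine ⟨(IsDedekindDomain.primesOverFinset p O).attach.image Φ, ?_, ?_, ?_⟩
  · intro v
    constructor
    · intro hv
      obtain ⟨P, -, rfl⟩ := Finset.mem_image.mp hv
      rw [hord]
      have hne : p.ramificationIdx' P.1 ≠ 0 := by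
        have := (hmemP P.1 P.2).1
        have := (hmemP P.1 P.2).2
        exact Ideal.IsDedekindDomain.ramificationIdx'_ne_zero_of_liesOver P.1 hp0
      exact_mod_cast Nat.pos_of_ne_zero hne
    · intro hv
      have htmem : algebraMap K[X] F t ∈ v.toValuationSubring := Place_mem_of_ord_nonneg v hv.le
      -- `x = t + a` lies in the valuation ring, hence all of `K[x]`
      have hXmem : algebraMap K[X] F X ∈ v.toValuationSubring := by
        have h1 : algebraMap K[X] F X = algebraMap K[X] F t + algebraMap K F a := by
          rw [ht, map_sub, ← algebraMap_eq, ← IsScalarTower.algebraMap_apply K K[X] F]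
          ring
        rw [h1]
        exact add_mem htmem (v.algebraMap_mem' a)
      have hpoly : ∀ q : K[X], algebraMap K[X] F q ∈ v.toValuationSubring := by
        intro q
        induction q using Polynomial.induction_on' with
        | add q₁ q₂ h₁ h₂ => rw [map_add]; exact add_mem h₁ h₂
        | monomial n c =>
          rw [← C_mul_X_pow_eq_monomial, map_mul, map_pow, ← algebraMap_eq,
            ← IsScalarTower.algebraMap_apply K K[X] F]
          exact mul_mem (v.algebraMap_mem' c) (pow_mem hXmem n)
      have hB : ∀ b : O, algebraMap O F b ∈ v.toValuationSubring := by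
        intro b
        have hb : IsIntegral K[X] (algebraMap O F b) :=
          (IsIntegralClosure.isIntegral_iff (A := O)).mpr ⟨b, rfl⟩
        obtain ⟨q, hq, hqb⟩ := hb
        let g : K[X] →+* v.toValuationSubring :=
          (algebraMap K[X] F).codRestrict v.toValuationSubring.toSubring hpoly
        have hg : (algebraMap v.toValuationSubring F).comp g = algebraMap K[X] F := rfl
        have hint : IsIntegral v.toValuationSubring (algebraMap O F b) := by
          refine ⟨q.map g, hq.map g, ?_⟩
          rw [Polynomial.eval₂_map, hg]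
          exact hqb
        obtain ⟨y, hy⟩ :=
          (IsIntegrallyClosed.isIntegral_iff (R := v.toValuationSubring) (K := F)).mp hint
        rw [← hy]
        exact y.2
      obtain ⟨w, rfl⟩ := Place_exists_heightOneSpectrum_of_le v hB
      have hsw : algebraMap K[X] O t ∈ w.asIdeal := by
        rw [← HeightOneSpectrum.valuation_lt_one_iff_mem (K := F)]
        show w.valuation F (algebraMap O F (algebraMap K[X] O t)) < 1
        rw [htF]
        rw [Place_ofHeightOneSpectrum_ord] at hv
        have hne : w.valuation F (algebraMap K[X] F t) ≠ 0 := (Valuation.ne_zero_iff _).mpr htF0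
        rw [← exp_log hne, ← exp_zero, exp_lt_exp]
        omega
      have hover : w.asIdeal.LiesOver p := by
        refine ⟨?_⟩
        refine Ideal.IsMaximal.eq_of_le hpmax ?_ ?_
        · exact (Ideal.IsPrime.under K[X] w.asIdeal).ne_top
        · rw [Ideal.span_le, Set.singleton_subset_iff]
          exact hsw
      have hmem : w.asIdeal ∈ IsDedekindDomain.primesOverFinset p O :=
        (IsDedekindDomain.mem_primesOverFinset_iff hp0 _).mpr ⟨w.isPrime, hover⟩
      exact Finset.mem_image.mpr ⟨⟨w.asIdeal, hmem⟩, Finset.mem_attach _ _, rfl⟩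
  · rw [Finset.sum_image (fun x _ y _ h => hΦinj h)]
    have h1 : ∑ P ∈ (IsDedekindDomain.primesOverFinset p O).attach,
          (Φ P).ord (algebraMap K[X] F t)
        = ∑ P ∈ (IsDedekindDomain.primesOverFinset p O).attach,
            ((p.ramificationIdx' P.1 * p.inertiaDeg' P.1 : ℕ) : ℤ) :=
      Finset.sum_congr rfl fun P _ => by rw [hord, hinert P.1 P.2, mul_one]
    rw [h1, Finset.sum_attach (IsDedekindDomain.primesOverFinset p O)
      (fun P => ((p.ramificationIdx' P * p.inertiaDeg' P : ℕ) : ℤ)), ← Nat.cast_sum, hsum]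
  · rw [Finset.card_image_of_injective _ hΦinj, Finset.card_attach]
    -- maximal ideals containing `X - a` are exactly the primes over `p`
    have hiff : ∀ Q : Ideal O, Q ∈ IsDedekindDomain.primesOverFinset p O ↔
        (Q.IsMaximal ∧ algebraMap K[X] O t ∈ Q) := by
      intro Q
      rw [IsDedekindDomain.mem_primesOverFinset_iff hp0]
      constructor
      · rintro ⟨hQ, hQp⟩
        have hQ0 : Q ≠ ⊥ := Ideal.ne_bot_of_liesOver_of_ne_bot hp0 Q
        refine ⟨hQ.isMaximal hQ0, ?_⟩
        have : t ∈ Q.under K[X] := by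
          rw [← hQp.over]
          exact Ideal.mem_span_singleton_self t
        exact this
      · rintro ⟨hQ, htQ⟩
        refine ⟨hQ.isPrime, ⟨?_⟩⟩
        refine Ideal.IsMaximal.eq_of_le hpmax ?_ ?_
        · exact (Ideal.IsPrime.under K[X] Q).ne_top
        · rw [Ideal.span_le, Set.singleton_subset_iff]
          exact htQ
    have e : {Q : Ideal O // Q.IsMaximal ∧ algebraMap K[X] O (X - C a) ∈ Q} ≃
        {Q : Ideal O // Q ∈ IsDedekindDomain.primesOverFinset p O} :=
      Equiv.subtypeEquivRight (fun Q => (hiff Q).symm)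
    rw [Nat.card_congr e, Nat.card_eq_fintype_card, Fintype.card_coe]

variable (K₀) in
/-- (D2), generic form: if every place over `x = a` is unramified, then there are exactly
`[F : K₀]` maximal ideals of the integral closure over `X - a`. -/
theorem card_maximal_over_eq_finrank [IsAlgClosed K] (a : K)
    (h : ∀ v : Place K F, 0 < v.ord (algebraMap K[X] F (X - C a)) →
      v.ord (algebraMap K[X] F (X - C a)) = 1) :
    Nat.card {Q : Ideal O // Q.IsMaximal ∧ algebraMap K[X] O (X - C a) ∈ Q} = finrank K₀ F := by
  obtain ⟨S, hS, hsum, hcard⟩ := exists_finset_places_over K₀ O (F := F) a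
  rw [← hcard]
  have h1 : ∑ v ∈ S, v.ord (algebraMap K[X] F (X - C a)) = ∑ _v ∈ S, (1 : ℤ) :=
    Finset.sum_congr rfl fun v hv => h v ((hS v).mp hv)
  rw [h1, Finset.sum_const, nsmul_eq_mul, mul_one] at hsum
  exact_mod_cast hsum

variable (K₀) in
/-- In general there are at most `[F : K₀]` maximal ideals over `X - a`. -/
theorem card_maximal_over_le_finrank [IsAlgClosed K] (a : K) :
    Nat.card {Q : Ideal O // Q.IsMaximal ∧ algebraMap K[X] O (X - C a) ∈ Q} ≤ finrank K₀ F := by
  obtain ⟨S, hS, hsum, hcard⟩ := exists_finset_places_over K₀ O (F := F) a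
  rw [← hcard]
  have h1 : ∑ _v ∈ S, (1 : ℤ) ≤ ∑ v ∈ S, v.ord (algebraMap K[X] F (X - C a)) :=
    Finset.sum_le_sum fun v hv => by have := (hS v).mp hv; omega
  rw [hsum, Finset.sum_const, nsmul_eq_mul, mul_one] at h1
  exact_mod_cast h1

variable (K₀) in
/-- `a` is not a branch value iff every place over `x = a` is unramified. -/
theorem card_maximal_over_eq_finrank_iff [IsAlgClosed K] (a : K) :
    Nat.card {Q : Ideal O // Q.IsMaximal ∧ algebraMap K[X] O (X - C a) ∈ Q} = finrank K₀ F ↔
      ∀ v : Place K F, 0 < v.ord (algebraMap K[X] F (X - C a)) →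
        v.ord (algebraMap K[X] F (X - C a)) = 1 := by
  refine ⟨fun hc v hv => ?_, card_maximal_over_eq_finrank K₀ a⟩
  obtain ⟨S, hS, hsum, hcard⟩ := exists_finset_places_over K₀ O (F := F) a
  rw [← hcard] at hc
  by_contra hne
  have hvS : v ∈ S := (hS v).mpr hv
  have h1 : ∑ _w ∈ S, (1 : ℤ) < ∑ w ∈ S, w.ord (algebraMap K[X] F (X - C a)) :=
    Finset.sum_lt_sum (fun w hw => by have := (hS w).mp hw; omega) ⟨v, hvS, by omega⟩
  rw [hsum, Finset.sum_const, nsmul_eq_mul, mul_one, hc] at h1
  exact lt_irrefl _ h1

end Generic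

end Fermat.Agent.S18.CH04582
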