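import Fermat.Agent.S24.A564.SumOrd

/-!
# S18 / CH0 (helper4582): the Laurent chart `K[x, 1/x]` in `Place` language

Generic (any characteristic; no sorried import).  `F / K` a field extension, `x : F`.
* `ord_nonneg_of_isIntegral_laurent` : `z` integral over `K[x, 1/x]` is regular at every place
  with `ord x = 0`;
* `isIntegral_laurent_of_ord_nonneg` : conversely (given the corresponding statement for the
  chart `K[x]`, i.e. `rt_isIntegral_of_ord_nonneg`, and finiteness of the zeros of `x`);
* `unbranchedL_core` : if every place over `x = a` is unramified, then the fibre over `x = a` of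
  the integral closure of `K[x, 1/x]` is reduced (= `UnbranchedL K x a` of `TInt.lean`, unfolded).
-/

set_option autoImplicit false

namespace Fermat.Agent.S18.CH04582

open AlgebraicCurve
open Fermat.Agent.S24.A564.SO

variable {K F : Type*} [Field K] [Field F] [Algebra K F]

/-- Integrality is preserved when the base subalgebra grows. -/
theorem isIntegral_of_le {R R' : Subalgebra K F} (h : R ≤ R') {b : F} (hb : IsIntegral R b) :
    IsIntegral R' b := by
  obtain ⟨p, hp, hpb⟩ := hb
  let g : R →+* R' := (Subalgebra.inclusion h).toRingHom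
  have hg : (algebraMap R' F).comp g = algebraMap R F := rfl
  refine ⟨p.map g, hp.map g, ?_⟩
  rw [Polynomial.eval₂_map, hg]
  exact hpb

/-- Elements integral over `K[x, 1/x]` are regular at the places where `x` is a unit. -/
theorem ord_nonneg_of_isIntegral_laurent (x : F) (P : Place K F) (hP : P.ord x = 0) (z : F)
    (hz : IsIntegral (Algebra.adjoin K {x, x⁻¹}) z) : 0 ≤ P.ord z := by
  have hx : x ∈ P.toValuationSubring := Place_mem_of_ord_nonneg P hP.ge
  have hxi : x⁻¹ ∈ P.toValuationSubring :=
    Place_mem_of_ord_nonneg P (by rw [P.ord_inv, hP, neg_zero])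
  have hR : Algebra.adjoin K {x, x⁻¹} ≤ Place_subalgebra P := by
    refine Algebra.adjoin_le ?_
    intro y hy
    rcases hy with rfl | rfl
    · exact hx
    · exact hxi
  exact Place_ord_nonneg_of_mem P (Place_mem_of_isIntegral P hR hz)

/-- Functions regular at all places where `x` is a unit are integral over `K[x, 1/x]`. -/
theorem isIntegral_laurent_of_ord_nonneg (x : F)
    (hfin : {P : Place K F | 0 < P.ord x}.Finite)
    (hrt : ∀ f : F, (∀ P : Place K F, 0 ≤ P.ord x → 0 ≤ P.ord f) →
      IsIntegral (Algebra.adjoin K {x}) f)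
    (w : F) (hw : ∀ P : Place K F, P.ord x = 0 → 0 ≤ P.ord w) :
    IsIntegral (Algebra.adjoin K {x, x⁻¹}) w := by
  classical
  by_cases hx0 : x = 0
  · -- degenerate case: `x = 0`, no place has `0 < ord x`
    subst hx0
    have h1 : IsIntegral (Algebra.adjoin K {(0 : F)}) w :=
      hrt w (fun P _ => hw P (by simp))
    refine isIntegral_of_le (Algebra.adjoin_mono ?_) h1
    intro y hy
    rw [Set.mem_singleton_iff] at hy
    rw [hy]
    exact Set.mem_insert _ _
  by_cases hw0 : w = 0
  · rw [hw0]; exact isIntegral_zero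
  -- a uniform bound for the pole orders of `w` at the zeros of `x`
  obtain ⟨m, hm⟩ : ∃ m : ℕ, ∀ P ∈ hfin.toFinset, -(P.ord w) ≤ (m : ℤ) := by
    refine ⟨(hfin.toFinset.sup fun P => (P.ord w).natAbs), fun P hP => ?_⟩
    have h1 : (P.ord w).natAbs ≤ hfin.toFinset.sup fun P => (P.ord w).natAbs :=
      Finset.le_sup (f := fun P : Place K F => (P.ord w).natAbs) hP
    have h2 : -(P.ord w) ≤ ((P.ord w).natAbs : ℤ) := by
      rw [← Int.natAbs_neg]
      exact Int.le_natAbs
    exact h2.trans (by exact_mod_cast h1)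
  have hxm0 : x ^ m ≠ 0 := pow_ne_zero m hx0
  have h1 : IsIntegral (Algebra.adjoin K {x}) (x ^ m * w) := by
    refine hrt _ (fun P hP => ?_)
    rw [P.ord_mul hxm0 hw0]
    have hpow : P.ord (x ^ m) = (m : ℤ) * P.ord x := by
      have h := P.ord_zpow x (m : ℤ)
      rwa [zpow_natCast] at h
    rw [hpow]
    rcases hP.eq_or_lt with hP0 | hPpos
    · rw [← hP0, mul_zero, zero_add]
      exact hw P hP0.symm
    · have hmem : P ∈ hfin.toFinset := by
        rw [Set.Finite.mem_toFinset]
        exact hPpos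
      have h2 := hm P hmem
      have h3 : (m : ℤ) * 1 ≤ (m : ℤ) * P.ord x :=
        mul_le_mul_of_nonneg_left (by omega) (Int.natCast_nonneg m)
      omega
  have h2 : IsIntegral (Algebra.adjoin K {x, x⁻¹}) (x ^ m * w) :=
    isIntegral_of_le (Algebra.adjoin_mono (by
      intro y hy
      rw [Set.mem_singleton_iff] at hy
      rw [hy]
      exact Set.mem_insert _ _)) h1
  have hxi : x⁻¹ ∈ Algebra.adjoin K {x, x⁻¹} :=
    Algebra.subset_adjoin (Set.mem_insert_of_mem _ (Set.mem_singleton _))
  have h3 : IsIntegral (Algebra.adjoin K {x, x⁻¹}) (x⁻¹ ^ m) :=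
    isIntegral_algebraMap (x := (⟨x⁻¹, hxi⟩ : Algebra.adjoin K {x, x⁻¹}) ^ m)
  have h4 : w = x⁻¹ ^ m * (x ^ m * w) := by
    rw [← mul_assoc, ← mul_pow, inv_mul_cancel₀ hx0, one_pow, one_mul]
  rw [h4]
  exact h3.mul h2

/-- `UnbranchedL K x a` (unfolded) from "every place over `x = a` is unramified". -/
theorem unbranchedL_core (x : F)
    (hfin : {P : Place K F | 0 < P.ord x}.Finite)
    (hrt : ∀ f : F, (∀ P : Place K F, 0 ≤ P.ord x → 0 ≤ P.ord f) →
      IsIntegral (Algebra.adjoin K {x}) f)
    (a : K)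
    (h : ∀ v : Place K F, 0 < v.ord (x - algebraMap K F a) → v.ord (x - algebraMap K F a) = 1)
    (z : F) (hz : IsIntegral (Algebra.adjoin K {x, x⁻¹}) z)
    (hz2 : IsIntegral (Algebra.adjoin K {x, x⁻¹}) (z ^ 2 / (x - algebraMap K F a))) :
    IsIntegral (Algebra.adjoin K {x, x⁻¹}) (z / (x - algebraMap K F a)) := by
  by_cases hz0 : z = 0
  · rw [hz0, zero_div]
    exact isIntegral_zero
  by_cases hw0 : x - algebraMap K F a = 0
  · rw [hw0, div_zero]
    exact isIntegral_zero
  refine isIntegral_laurent_of_ord_nonneg x hfin hrt _ (fun P hP => ?_)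
  have h1 := ord_nonneg_of_isIntegral_laurent x P hP z hz
  have h2 := ord_nonneg_of_isIntegral_laurent x P hP _ hz2
  have h3 : 0 ≤ P.ord (x - algebraMap K F a) := by
    refine Place_ord_nonneg_of_mem P (sub_mem (Place_mem_of_ord_nonneg P hP.ge) (P.algebraMap_mem' a))
  have hinv : (x - algebraMap K F a)⁻¹ ≠ 0 := inv_ne_zero hw0
  rw [div_eq_mul_inv, P.ord_mul (pow_ne_zero 2 hz0) hinv, P.ord_inv, sq,
    P.ord_mul hz0 hz0] at h2
  rw [div_eq_mul_inv, P.ord_mul hz0 hinv, P.ord_inv]
  rcases h3.eq_or_lt with h3 | h3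
  · rw [← h3]; simpa using h1
  · have := h P h3
    omega

end Fermat.Agent.S18.CH04582
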