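import Mathlib
import Fermat.Prelude.Def_AlgebraicCurve_DivisorClassGroup
import Fermat.Agent.S24.A564.PlaceBasic

/-!
# S18 / CH0 (helper4582): local order computations at a place

Generic lemmas for a place `v` of a function field `F / K` (Prelude `AlgebraicCurve.Place`):
* `ord_aeval_eq_zero` : if `0 < v.ord (t - c)` and `p.eval c ≠ 0` then `v.ord (aeval t p) = 0`;
* `ord_eq_mul_of_rel` : if `x * u = (t - c) ^ e * w` with `u`, `w` of order `0` at `v`, then
  `v.ord x = e * v.ord (t - c)`.
-/

set_option autoImplicit false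

namespace Fermat.Agent.S18.CH04582

open AlgebraicCurve Polynomial
open Fermat.Agent.S24.A564.SO

variable {K F : Type*} [Field K] [Field F] [Algebra K F] (v : Place K F)

/-- An element of positive order is nonzero. -/
theorem ne_zero_of_ord_pos {f : F} (h : 0 < v.ord f) : f ≠ 0 := by
  rintro rfl
  simp at h

/-- An element of negative order is nonzero. -/
theorem ne_zero_of_ord_neg {f : F} (h : v.ord f < 0) : f ≠ 0 := by
  rintro rfl
  simp at h

/-- Natural powers. -/
theorem ord_pow (f : F) (n : ℕ) : v.ord (f ^ n) = n * v.ord f := by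
  have h := v.ord_zpow f (n : ℤ)
  rwa [zpow_natCast] at h

/-- Elements of positive order are non-units of the valuation ring. -/
theorem not_isUnit_of_ord_pos {f : F} (hf : f ∈ v.toValuationSubring) (h : 0 < v.ord f) :
    ¬ IsUnit (⟨f, hf⟩ : v.toValuationSubring) := by
  intro hu
  have h0 := v.ord_coe_unit hu.unit
  rw [IsUnit.unit_spec] at h0
  change v.ord f = 0 at h0
  omega

/-- If `t ≡ c` at `v` and `p(c) ≠ 0`, then `p(t)` is a unit at `v`. -/
theorem aeval_ne_zero_and_ord_eq_zero {t : F} {c : K} (h : 0 < v.ord (t - algebraMap K F c))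
    (p : K[X]) (hp : p.eval c ≠ 0) : aeval t p ≠ 0 ∧ v.ord (aeval t p) = 0 := by
  have hd : t - algebraMap K F c ∈ v.toValuationSubring := Place_mem_of_ord_nonneg v h.le
  have hc : algebraMap K F c ∈ v.toValuationSubring := v.algebraMap_mem' c
  have ht : t ∈ v.toValuationSubring := by
    have := add_mem hd hc
    rwa [sub_add_cancel] at this
  set t' : v.toValuationSubring := ⟨t, ht⟩ with ht'
  set c' : v.toValuationSubring := algebraMap K v.toValuationSubring c with hc'
  set p' : (v.toValuationSubring)[X] := p.map (algebraMap K v.toValuationSubring) with hp'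
  obtain ⟨q, hq⟩ := Polynomial.sub_dvd_eval_sub t' c' p'
  have hpc : p'.eval c' = algebraMap K v.toValuationSubring (p.eval c) := by
    rw [hp', hc', Polynomial.eval_map, Polynomial.eval₂_at_apply]
  have hunit : IsUnit (p'.eval c') := by
    rw [hpc]
    exact (isUnit_iff_ne_zero.mpr hp).map _
  have hnon : ¬ IsUnit (t' - c') := by
    have : t' - c' = ⟨t - algebraMap K F c, hd⟩ := rfl
    rw [this]
    exact not_isUnit_of_ord_pos v hd h
  have hmem : (t' - c') * q ∈ IsLocalRing.maximalIdeal v.toValuationSubring :=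
    Ideal.mul_mem_right _ _ ((IsLocalRing.mem_maximalIdeal _).mpr hnon)
  have hu2 : IsUnit (p'.eval t') := by
    by_contra hcon
    have h1 : p'.eval t' ∈ IsLocalRing.maximalIdeal v.toValuationSubring :=
      (IsLocalRing.mem_maximalIdeal _).mpr hcon
    have h2 : p'.eval c' ∈ IsLocalRing.maximalIdeal v.toValuationSubring := by
      have : p'.eval c' = p'.eval t' - (t' - c') * q := by rw [← hq]; ring
      rw [this]
      exact sub_mem h1 hmem
    exact (IsLocalRing.mem_maximalIdeal _).mp h2 hunit
  have hcoe : ((p'.eval t' : v.toValuationSubring) : F) = aeval t p := by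
    rw [hp', Polynomial.eval_map, aeval_def]
    have hcomp : (v.toValuationSubring.subtype : v.toValuationSubring →+* F).comp
        (algebraMap K v.toValuationSubring) = algebraMap K F := rfl
    have := Polynomial.hom_eval₂ p (algebraMap K v.toValuationSubring)
      (v.toValuationSubring.subtype) t'
    rw [hcomp] at this
    exact this
  have h0 := v.ord_coe_unit hu2.unit
  rw [IsUnit.unit_spec, hcoe] at h0
  refine ⟨?_, h0⟩
  rw [← hcoe]
  intro hz
  exact hu2.ne_zero (Subtype.ext hz)

/-- If `t ≡ c` at `v` and `p(c) ≠ 0`, then `p(t)` has order `0` at `v`. -/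
theorem ord_aeval_eq_zero {t : F} {c : K} (h : 0 < v.ord (t - algebraMap K F c)) (p : K[X])
    (hp : p.eval c ≠ 0) : v.ord (aeval t p) = 0 :=
  (aeval_ne_zero_and_ord_eq_zero v h p hp).2

/-- If `t ≡ c` at `v` and `p(c) ≠ 0`, then `p(t) ≠ 0`. -/
theorem aeval_ne_zero_of_ord_pos {t : F} {c : K} (h : 0 < v.ord (t - algebraMap K F c)) (p : K[X])
    (hp : p.eval c ≠ 0) : aeval t p ≠ 0 :=
  (aeval_ne_zero_and_ord_eq_zero v h p hp).1

/-- The order of `x` from a relation `x * u = (t - c) ^ e * w` with units `u`, `w`. -/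
theorem ord_eq_mul_of_rel {t x u w : F} {c : K} {e : ℕ}
    (h : 0 < v.ord (t - algebraMap K F c))
    (hu0 : u ≠ 0) (hu : v.ord u = 0) (hw0 : w ≠ 0) (hw : v.ord w = 0)
    (hrel : x * u = (t - algebraMap K F c) ^ e * w) :
    v.ord x = e * v.ord (t - algebraMap K F c) := by
  have htc : t - algebraMap K F c ≠ 0 := ne_zero_of_ord_pos v h
  have hx0 : x ≠ 0 := by
    rintro rfl
    rw [zero_mul] at hrel
    exact mul_ne_zero (pow_ne_zero e htc) hw0 hrel.symm
  have h1 : v.ord (x * u) = v.ord x := by rw [v.ord_mul hx0 hu0, hu, add_zero]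
  have h2 : v.ord ((t - algebraMap K F c) ^ e * w) = e * v.ord (t - algebraMap K F c) := by
    rw [v.ord_mul (pow_ne_zero e htc) hw0, hw, add_zero, ord_pow]
  rw [← h1, hrel, h2]

end Fermat.Agent.S18.CH04582
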