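import Fermat.Agent.S18.CH04582.LocalOrd

/-!
# S18 / CH0 (helper4582): ramification over the `t`-line of `X₀(2)` and `X₀(3)` (local form)

Let `F / K` be a function field (`K` of characteristic zero), `v` a place, and `j t : F` with

* `r = 2`: `j * t ^ 2 = (t + 256) ^ 3`,
* `r = 3`: `j * t ^ 3 = (t + 27) * (t + 243) ^ 3`.

Assume the ramification of `v` over the `j`-line is as for modular curves (`e ∈ {1, 3}` over `0`,
`e ∈ {1, 2}` over `1728`, `e = 1` elsewhere).  Then `v` is unramified over every finite nonzero value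
`c` of `t` except the elliptic value `t* = -64` (resp. `-27`), where `e ∈ {1, 2}` (resp. `{1, 3}`).
Also: the behaviour at `t = 0` and `t = ∞` (the cusps of `X₀(r)`).
-/

set_option autoImplicit false

namespace Fermat.Agent.S18.CH04582

open AlgebraicCurve Polynomial

variable {K F : Type*} [Field K] [Field F] [Algebra K F] (v : Place K F)
variable {j t : F}

/-! ### Level two: `j t² = (t + 256)³` -/

section LevelTwo

/-- `r = 2`, a value `c` of `t` with `j(c) ∉ {0, 1728, ∞}`: unramified. -/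
theorem ord_t2_generic (hrel : j * t ^ 2 = (t + 256) ^ 3)
    (hgen : ∀ a : K, a ≠ 0 → a ≠ 1728 → 0 < v.ord (j - algebraMap K F a) →
      v.ord (j - algebraMap K F a) = 1)
    (c : K) (hc0 : c ≠ 0) (hc1 : c ≠ -256) (hc2 : c ≠ 512) (hc3 : c ≠ -64)
    (h : 0 < v.ord (t - algebraMap K F c)) :
    v.ord (t - algebraMap K F c) = 1 := by
  set J : K := (c + 256) ^ 3 / c ^ 2 with hJdef
  have hJc : J * c ^ 2 = (c + 256) ^ 3 := div_mul_cancel₀ _ (pow_ne_zero 2 hc0)
  have hc1' : c + 256 ≠ 0 := fun h0 => hc1 (by linear_combination h0)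
  have hJ0 : J ≠ 0 := by
    intro h0
    rw [h0, zero_mul] at hJc
    exact pow_ne_zero 3 hc1' hJc.symm
  have hJ1 : J ≠ 1728 := by
    intro h1
    rw [h1] at hJc
    have h2 : (c + 64) * (c - 512) ^ 2 = 0 := by linear_combination -hJc
    rcases mul_eq_zero.mp h2 with h3 | h3
    · exact hc3 (by linear_combination h3)
    · exact hc2 (by linear_combination pow_eq_zero_iff (two_ne_zero) |>.mp h3)
  set pu : K[X] := C (c ^ 2) * X ^ 2 with hpu_def
  set pw : K[X] := C (c ^ 2) * X ^ 2 - C (196608 * c + 16777216) * X - C (16777216 * c)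
    with hpw_def
  have hpu : pu.eval c ≠ 0 := by
    have : pu.eval c = c ^ 4 := by simp [hpu_def]; ring
    rw [this]
    exact pow_ne_zero 4 hc0
  have hpw : pw.eval c ≠ 0 := by
    have : pw.eval c = c * (c + 256) ^ 2 * (c - 512) := by simp [hpw_def]; ring
    rw [this]
    exact mul_ne_zero (mul_ne_zero hc0 (pow_ne_zero 2 hc1')) (sub_ne_zero.mpr hc2)
  have hu := aeval_ne_zero_and_ord_eq_zero v h pu hpu
  have hw := aeval_ne_zero_and_ord_eq_zero v h pw hpw
  have hJF : algebraMap K F J * algebraMap K F c ^ 2 = (algebraMap K F c + 256) ^ 3 := by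
    rw [← map_pow, ← map_mul, hJc, map_pow, map_add, map_ofNat]
  have key : (j - algebraMap K F J) * aeval t pu = (t - algebraMap K F c) ^ 1 * aeval t pw := by
    simp only [hpu_def, hpw_def, map_mul, map_sub, map_pow, aeval_C, aeval_X, map_add, map_ofNat,
      pow_one]
    linear_combination (algebraMap K F c) ^ 2 * hrel - t ^ 2 * hJF
  have hord := ord_eq_mul_of_rel v h hu.1 hu.2 hw.1 hw.2 key
  have hpos : 0 < v.ord (j - algebraMap K F J) := by
    rw [hord]
    simpa using h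
  have h1 := hgen J hJ0 hJ1 hpos
  rw [hord] at h1
  simpa using h1

variable [CharZero K]

omit [CharZero K] in
theorem sub_neg_ofNat_aux (n : ℕ) [n.AtLeastTwo] :
    t - algebraMap K F (-(OfNat.ofNat n : K)) = t + (OfNat.ofNat n : F) := by
  rw [map_neg, map_ofNat, sub_neg_eq_add]

omit [CharZero K] in
theorem sub_ofNat_aux (n : ℕ) [n.AtLeastTwo] :
    t - algebraMap K F (OfNat.ofNat n : K) = t - (OfNat.ofNat n : F) := by
  rw [map_ofNat]

/-- `r = 2`, over `t = -256` (the point over `j = 0`): `ord j = 3 ord (t + 256)`. -/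
theorem ord_j_of_t2_neg256 (hrel : j * t ^ 2 = (t + 256) ^ 3) (h : 0 < v.ord (t + 256)) :
    v.ord j = 3 * v.ord (t + 256) := by
  have h' : 0 < v.ord (t - algebraMap K F (-256)) := by rwa [sub_neg_ofNat_aux]
  have hu := aeval_ne_zero_and_ord_eq_zero v h' (X ^ 2 : K[X]) (by simp)
  have hw := aeval_ne_zero_and_ord_eq_zero v h' (1 : K[X]) (by simp)
  have key : j * aeval t (X ^ 2 : K[X]) = (t - algebraMap K F (-256)) ^ 3 * aeval t (1 : K[X]) := by
    rw [sub_neg_ofNat_aux]
    simp only [map_pow, aeval_X, map_one, mul_one]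
    exact hrel
  have hord := ord_eq_mul_of_rel v h' hu.1 hu.2 hw.1 hw.2 key
  rw [sub_neg_ofNat_aux] at hord
  exact_mod_cast hord

/-- `r = 2`, over `t = 512` (the ramified point over `j = 1728`):
`ord (j - 1728) = 2 ord (t - 512)`. -/
theorem ord_j1728_of_t2_512 (hrel : j * t ^ 2 = (t + 256) ^ 3) (h : 0 < v.ord (t - 512)) :
    v.ord (j - 1728) = 2 * v.ord (t - 512) := by
  have h' : 0 < v.ord (t - algebraMap K F 512) := by rwa [sub_ofNat_aux]
  have hu := aeval_ne_zero_and_ord_eq_zero v h' (X ^ 2 : K[X]) (by simp)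
  have hw := aeval_ne_zero_and_ord_eq_zero v h' (X + C 64 : K[X]) (by simp; norm_num)
  have key : (j - 1728) * aeval t (X ^ 2 : K[X]) =
      (t - algebraMap K F 512) ^ 2 * aeval t (X + C 64 : K[X]) := by
    rw [sub_ofNat_aux]
    simp only [map_pow, aeval_X, map_add, aeval_C, map_ofNat]
    linear_combination hrel
  have hord := ord_eq_mul_of_rel v h' hu.1 hu.2 hw.1 hw.2 key
  rw [sub_ofNat_aux] at hord
  exact_mod_cast hord

/-- `r = 2`, over the elliptic value `t = -64` (the unramified point over `j = 1728`):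
`ord (j - 1728) = ord (t + 64)`. -/
theorem ord_j1728_of_t2_neg64 (hrel : j * t ^ 2 = (t + 256) ^ 3) (h : 0 < v.ord (t + 64)) :
    v.ord (j - 1728) = v.ord (t + 64) := by
  have h' : 0 < v.ord (t - algebraMap K F (-64)) := by rwa [sub_neg_ofNat_aux]
  have hu := aeval_ne_zero_and_ord_eq_zero v h' (X ^ 2 : K[X]) (by simp)
  have hw := aeval_ne_zero_and_ord_eq_zero v h' ((X - C 512) ^ 2 : K[X]) (by simp; norm_num)
  have key : (j - 1728) * aeval t (X ^ 2 : K[X]) =
      (t - algebraMap K F (-64)) ^ 1 * aeval t ((X - C 512) ^ 2 : K[X]) := by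
    rw [sub_neg_ofNat_aux]
    simp only [map_pow, aeval_X, map_sub, aeval_C, map_ofNat, pow_one]
    linear_combination hrel
  have hord := ord_eq_mul_of_rel v h' hu.1 hu.2 hw.1 hw.2 key
  rw [sub_neg_ofNat_aux] at hord
  simpa using hord

/-- **`r = 2`: the cover is unramified over every finite nonzero value of `t` except `-64`.** -/
theorem ord_t2_eq_one (hrel : j * t ^ 2 = (t + 256) ^ 3)
    (h0 : 0 < v.ord j → v.ord j = 1 ∨ v.ord j = 3)
    (h1728 : 0 < v.ord (j - 1728) → v.ord (j - 1728) = 1 ∨ v.ord (j - 1728) = 2)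
    (hgen : ∀ a : K, a ≠ 0 → a ≠ 1728 → 0 < v.ord (j - algebraMap K F a) →
      v.ord (j - algebraMap K F a) = 1)
    (c : K) (hc0 : c ≠ 0) (hc : c ≠ -64) (h : 0 < v.ord (t - algebraMap K F c)) :
    v.ord (t - algebraMap K F c) = 1 := by
  by_cases hc1 : c = -256
  · subst hc1
    rw [sub_neg_ofNat_aux] at h ⊢
    have h1 := ord_j_of_t2_neg256 v hrel h
    have h2 := h0 (by omega)
    omega
  by_cases hc2 : c = 512
  · subst hc2
    rw [sub_ofNat_aux] at h ⊢
    have h1 := ord_j1728_of_t2_512 v hrel h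
    have h2 := h1728 (by omega)
    omega
  exact ord_t2_generic v hrel hgen c hc0 hc1 hc2 hc h

/-- **`r = 2`: over the elliptic value `t = -64` the ramification index is `1` or `2`.** -/
theorem ord_t2_star (hrel : j * t ^ 2 = (t + 256) ^ 3)
    (h1728 : 0 < v.ord (j - 1728) → v.ord (j - 1728) = 1 ∨ v.ord (j - 1728) = 2)
    (h : 0 < v.ord (t + 64)) : v.ord (t + 64) = 1 ∨ v.ord (t + 64) = 2 := by
  have h1 := ord_j1728_of_t2_neg64 v hrel h
  have h2 := h1728 (by omega)
  omega

/-- `r = 2`, the cusp `t = 0`: `ord j = -2 ord t`. -/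
theorem ord_j_of_t2_zero (hrel : j * t ^ 2 = (t + 256) ^ 3) (h : 0 < v.ord t) :
    v.ord j = -2 * v.ord t := by
  have h' : 0 < v.ord (t - algebraMap K F 0) := by rwa [map_zero, sub_zero]
  have hw := aeval_ne_zero_and_ord_eq_zero v h' (X + C 256 : K[X]) (by simp)
  simp only [map_add, aeval_X, aeval_C, map_ofNat] at hw
  have ht : t ≠ 0 := ne_zero_of_ord_pos v h
  have hj : j ≠ 0 := by
    rintro rfl
    rw [zero_mul] at hrel
    exact pow_ne_zero 3 hw.1 hrel.symm
  have h1 := congrArg v.ord hrel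
  rw [v.ord_mul hj (pow_ne_zero 2 ht), ord_pow, ord_pow, hw.2] at h1
  push_cast at h1
  omega

/-- `r = 2`, the cusp `t = ∞`: `ord j = ord t`. -/
theorem ord_j_of_t2_infty (hrel : j * t ^ 2 = (t + 256) ^ 3) (h : v.ord t < 0) :
    v.ord j = v.ord t := by
  have ht : t ≠ 0 := ne_zero_of_ord_neg v h
  have h' : 0 < v.ord (t⁻¹ - algebraMap K F 0) := by
    rw [map_zero, sub_zero, v.ord_inv]
    omega
  have hw := aeval_ne_zero_and_ord_eq_zero v h' (1 + C 256 * X : K[X]) (by simp)
  simp only [map_add, map_one, map_mul, aeval_X, aeval_C, map_ofNat] at hw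
  have hrel' : j = t * (1 + 256 * t⁻¹) ^ 3 := by
    have h2 : j * t ^ 2 = (t * (1 + 256 * t⁻¹) ^ 3) * t ^ 2 := by
      rw [hrel]
      field_simp
    exact mul_right_cancel₀ (pow_ne_zero 2 ht) h2
  rw [hrel', v.ord_mul ht (pow_ne_zero 3 hw.1), ord_pow, hw.2]
  simp

omit [CharZero K] in
/-- `r = 2`: where `t` is a unit, `j` is regular. -/
theorem ord_j_nonneg_of_t2_unit (hrel : j * t ^ 2 = (t + 256) ^ 3) (ht : t ≠ 0)
    (h : v.ord t = 0) : 0 ≤ v.ord j := by
  rcases eq_or_ne j 0 with rfl | hj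
  · simp
  have ht_mem : t ∈ v.toValuationSubring :=
    Fermat.Agent.S24.A564.SO.Place_mem_of_ord_nonneg v h.ge
  have h256 : (256 : F) ∈ v.toValuationSubring := by
    have := v.algebraMap_mem' (256 : K)
    rwa [map_ofNat] at this
  have hmem : (t + 256) ^ 3 ∈ v.toValuationSubring := pow_mem (add_mem ht_mem h256) 3
  have h1 := Fermat.Agent.S24.A564.SO.Place_ord_nonneg_of_mem v hmem
  rw [← hrel, v.ord_mul hj (pow_ne_zero 2 ht), ord_pow, h] at h1
  simpa using h1

/-- `r = 2`: `t` is a unit at `v` exactly when `j` is regular at `v`. -/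
theorem ord_t2_eq_zero_iff (hrel : j * t ^ 2 = (t + 256) ^ 3) (ht : t ≠ 0) :
    v.ord t = 0 ↔ 0 ≤ v.ord j := by
  refine ⟨ord_j_nonneg_of_t2_unit v hrel ht, fun hj => ?_⟩
  rcases lt_trichotomy (v.ord t) 0 with h | h | h
  · have := ord_j_of_t2_infty v hrel h
    omega
  · exact h
  · have := ord_j_of_t2_zero v hrel h
    omega

end LevelTwo

/-! ### Level three: `j t³ = (t + 27) (t + 243)³` -/

section LevelThree

/-- `r = 3`, a value `c` of `t` with `j(c) ∉ {0, 1728, ∞}`: unramified. -/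
theorem ord_t3_generic (hrel : j * t ^ 3 = (t + 27) * (t + 243) ^ 3)
    (hgen : ∀ a : K, a ≠ 0 → a ≠ 1728 → 0 < v.ord (j - algebraMap K F a) →
      v.ord (j - algebraMap K F a) = 1)
    (c : K) (hc0 : c ≠ 0) (hc1 : c ≠ -27) (hc2 : c ≠ -243) (hc3 : c ^ 2 - 486 * c - 19683 ≠ 0)
    (h : 0 < v.ord (t - algebraMap K F c)) :
    v.ord (t - algebraMap K F c) = 1 := by
  set J : K := (c + 27) * (c + 243) ^ 3 / c ^ 3 with hJdef
  have hJc : J * c ^ 3 = (c + 27) * (c + 243) ^ 3 := div_mul_cancel₀ _ (pow_ne_zero 3 hc0)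
  have hc1' : c + 27 ≠ 0 := fun h0 => hc1 (by linear_combination h0)
  have hc2' : c + 243 ≠ 0 := fun h0 => hc2 (by linear_combination h0)
  have hJ0 : J ≠ 0 := by
    intro h0
    rw [h0, zero_mul] at hJc
    exact mul_ne_zero hc1' (pow_ne_zero 3 hc2') hJc.symm
  have hJ1 : J ≠ 1728 := by
    intro h1
    rw [h1] at hJc
    have h2 : (c ^ 2 - 486 * c - 19683) ^ 2 = 0 := by linear_combination -hJc
    exact pow_ne_zero 2 hc3 h2
  set pu : K[X] := C (c ^ 3) * X ^ 3 with hpu_def
  set pw : K[X] := C (c ^ 3) * X ^ 3 - C (196830 * c ^ 2 + 19131876 * c + 387420489) * X ^ 2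
    - C (19131876 * c ^ 2 + 387420489 * c) * X - C (387420489 * c ^ 2) with hpw_def
  have hpu : pu.eval c ≠ 0 := by
    have : pu.eval c = c ^ 6 := by simp [hpu_def]; ring
    rw [this]
    exact pow_ne_zero 6 hc0
  have hpw : pw.eval c ≠ 0 := by
    have : pw.eval c = c ^ 2 * (c + 243) ^ 2 * (c ^ 2 - 486 * c - 19683) := by
      simp [hpw_def]; ring
    rw [this]
    exact mul_ne_zero (mul_ne_zero (pow_ne_zero 2 hc0) (pow_ne_zero 2 hc2')) hc3
  have hu := aeval_ne_zero_and_ord_eq_zero v h pu hpu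
  have hw := aeval_ne_zero_and_ord_eq_zero v h pw hpw
  have hJF : algebraMap K F J * algebraMap K F c ^ 3 =
      (algebraMap K F c + 27) * (algebraMap K F c + 243) ^ 3 := by
    rw [← map_pow, ← map_mul, hJc, map_mul, map_pow, map_add, map_add, map_ofNat, map_ofNat]
  have key : (j - algebraMap K F J) * aeval t pu = (t - algebraMap K F c) ^ 1 * aeval t pw := by
    simp only [hpu_def, hpw_def, map_mul, map_sub, map_pow, aeval_C, aeval_X, map_add, map_ofNat,
      pow_one]
    linear_combination (algebraMap K F c) ^ 3 * hrel - t ^ 3 * hJF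
  have hord := ord_eq_mul_of_rel v h hu.1 hu.2 hw.1 hw.2 key
  have hpos : 0 < v.ord (j - algebraMap K F J) := by
    rw [hord]
    simpa using h
  have h1 := hgen J hJ0 hJ1 hpos
  rw [hord] at h1
  simpa using h1

variable [CharZero K]

/-- `r = 3`, over the elliptic value `t = -27` (the unramified point over `j = 0`):
`ord j = ord (t + 27)`. -/
theorem ord_j_of_t3_neg27 (hrel : j * t ^ 3 = (t + 27) * (t + 243) ^ 3) (h : 0 < v.ord (t + 27)) :
    v.ord j = v.ord (t + 27) := by
  have h' : 0 < v.ord (t - algebraMap K F (-27)) := by rwa [sub_neg_ofNat_aux]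
  have hu := aeval_ne_zero_and_ord_eq_zero v h' (X ^ 3 : K[X]) (by simp)
  have hw := aeval_ne_zero_and_ord_eq_zero v h' ((X + C 243) ^ 3 : K[X]) (by simp; norm_num)
  have key : j * aeval t (X ^ 3 : K[X]) =
      (t - algebraMap K F (-27)) ^ 1 * aeval t ((X + C 243) ^ 3 : K[X]) := by
    rw [sub_neg_ofNat_aux]
    simp only [map_pow, aeval_X, map_add, aeval_C, map_ofNat, pow_one]
    exact hrel
  have hord := ord_eq_mul_of_rel v h' hu.1 hu.2 hw.1 hw.2 key
  rw [sub_neg_ofNat_aux] at hord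
  simpa using hord

/-- `r = 3`, over `t = -243` (the ramified point over `j = 0`): `ord j = 3 ord (t + 243)`. -/
theorem ord_j_of_t3_neg243 (hrel : j * t ^ 3 = (t + 27) * (t + 243) ^ 3)
    (h : 0 < v.ord (t + 243)) : v.ord j = 3 * v.ord (t + 243) := by
  have h' : 0 < v.ord (t - algebraMap K F (-243)) := by rwa [sub_neg_ofNat_aux]
  have hu := aeval_ne_zero_and_ord_eq_zero v h' (X ^ 3 : K[X]) (by simp)
  have hw := aeval_ne_zero_and_ord_eq_zero v h' (X + C 27 : K[X]) (by simp; norm_num)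
  have key : j * aeval t (X ^ 3 : K[X]) =
      (t - algebraMap K F (-243)) ^ 3 * aeval t (X + C 27 : K[X]) := by
    rw [sub_neg_ofNat_aux]
    simp only [map_pow, aeval_X, map_add, aeval_C, map_ofNat]
    linear_combination hrel
  have hord := ord_eq_mul_of_rel v h' hu.1 hu.2 hw.1 hw.2 key
  rw [sub_neg_ofNat_aux] at hord
  exact_mod_cast hord

/-- `r = 3`, over a root `c` of `X² - 486 X - 19683` (the two points over `j = 1728`):
`ord (j - 1728) = 2 ord (t - c)`. -/
theorem ord_j1728_of_t3_root (hrel : j * t ^ 3 = (t + 27) * (t + 243) ^ 3)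
    (c : K) (hc : c ^ 2 - 486 * c - 19683 = 0) (h : 0 < v.ord (t - algebraMap K F c)) :
    v.ord (j - 1728) = 2 * v.ord (t - algebraMap K F c) := by
  have hc0 : c ≠ 0 := by
    rintro rfl
    norm_num at hc
  have hu := aeval_ne_zero_and_ord_eq_zero v h (X ^ 3 : K[X]) (by simpa using hc0)
  have hw := aeval_ne_zero_and_ord_eq_zero v h ((X + C (c - 486)) ^ 2 : K[X]) (by
    have h1 : ((X + C (c - 486)) ^ 2 : K[X]).eval c = 314928 := by
      simp only [eval_pow, eval_add, eval_X, eval_C]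
      linear_combination 4 * hc
    rw [h1]
    norm_num)
  have hcF : algebraMap K F c ^ 2 - 486 * algebraMap K F c - 19683 = 0 := by
    have := congrArg (algebraMap K F) hc
    simpa only [map_sub, map_pow, map_mul, map_ofNat, map_zero] using this
  have key : (j - 1728) * aeval t (X ^ 3 : K[X]) =
      (t - algebraMap K F c) ^ 2 * aeval t ((X + C (c - 486)) ^ 2 : K[X]) := by
    simp only [map_pow, aeval_X, map_add, aeval_C, map_sub, map_ofNat]
    linear_combination hrel + (2 * (t ^ 2 - 486 * t - 19683) -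
      (algebraMap K F c ^ 2 - 486 * algebraMap K F c - 19683)) * hcF
  have hord := ord_eq_mul_of_rel v h hu.1 hu.2 hw.1 hw.2 key
  exact_mod_cast hord

/-- **`r = 3`: the cover is unramified over every finite nonzero value of `t` except `-27`.** -/
theorem ord_t3_eq_one (hrel : j * t ^ 3 = (t + 27) * (t + 243) ^ 3)
    (h0 : 0 < v.ord j → v.ord j = 1 ∨ v.ord j = 3)
    (h1728 : 0 < v.ord (j - 1728) → v.ord (j - 1728) = 1 ∨ v.ord (j - 1728) = 2)
    (hgen : ∀ a : K, a ≠ 0 → a ≠ 1728 → 0 < v.ord (j - algebraMap K F a) →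
      v.ord (j - algebraMap K F a) = 1)
    (c : K) (hc0 : c ≠ 0) (hc : c ≠ -27) (h : 0 < v.ord (t - algebraMap K F c)) :
    v.ord (t - algebraMap K F c) = 1 := by
  by_cases hc2 : c = -243
  · subst hc2
    rw [sub_neg_ofNat_aux] at h ⊢
    have h1 := ord_j_of_t3_neg243 v hrel h
    have h2 := h0 (by omega)
    omega
  by_cases hc3 : c ^ 2 - 486 * c - 19683 = 0
  · have h1 := ord_j1728_of_t3_root v hrel c hc3 h
    have h2 := h1728 (by omega)
    omega
  exact ord_t3_generic v hrel hgen c hc0 hc hc2 hc3 h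

/-- **`r = 3`: over the elliptic value `t = -27` the ramification index is `1` or `3`.** -/
theorem ord_t3_star (hrel : j * t ^ 3 = (t + 27) * (t + 243) ^ 3)
    (h0 : 0 < v.ord j → v.ord j = 1 ∨ v.ord j = 3)
    (h : 0 < v.ord (t + 27)) : v.ord (t + 27) = 1 ∨ v.ord (t + 27) = 3 := by
  have h1 := ord_j_of_t3_neg27 v hrel h
  have h2 := h0 (by omega)
  omega

/-- `r = 3`, the cusp `t = 0`: `ord j = -3 ord t`. -/
theorem ord_j_of_t3_zero (hrel : j * t ^ 3 = (t + 27) * (t + 243) ^ 3) (h : 0 < v.ord t) :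
    v.ord j = -3 * v.ord t := by
  have h' : 0 < v.ord (t - algebraMap K F 0) := by rwa [map_zero, sub_zero]
  have hw := aeval_ne_zero_and_ord_eq_zero v h' ((X + C 27) * (X + C 243) ^ 3 : K[X])
    (by simp)
  simp only [map_mul, map_pow, map_add, aeval_X, aeval_C, map_ofNat] at hw
  have ht : t ≠ 0 := ne_zero_of_ord_pos v h
  have hj : j ≠ 0 := by
    rintro rfl
    rw [zero_mul] at hrel
    exact hw.1 hrel.symm
  have h1 := congrArg v.ord hrel
  rw [v.ord_mul hj (pow_ne_zero 3 ht), ord_pow, hw.2] at h1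
  push_cast at h1
  omega

/-- `r = 3`, the cusp `t = ∞`: `ord j = ord t`. -/
theorem ord_j_of_t3_infty (hrel : j * t ^ 3 = (t + 27) * (t + 243) ^ 3) (h : v.ord t < 0) :
    v.ord j = v.ord t := by
  have ht : t ≠ 0 := ne_zero_of_ord_neg v h
  have h' : 0 < v.ord (t⁻¹ - algebraMap K F 0) := by
    rw [map_zero, sub_zero, v.ord_inv]
    omega
  have hw := aeval_ne_zero_and_ord_eq_zero v h' ((1 + C 27 * X) * (1 + C 243 * X) ^ 3 : K[X])
    (by simp)
  simp only [map_add, map_one, map_mul, map_pow, aeval_X, aeval_C, map_ofNat] at hw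
  have hrel' : j = t * ((1 + 27 * t⁻¹) * (1 + 243 * t⁻¹) ^ 3) := by
    have h2 : j * t ^ 3 = (t * ((1 + 27 * t⁻¹) * (1 + 243 * t⁻¹) ^ 3)) * t ^ 3 := by
      rw [hrel]
      field_simp
    exact mul_right_cancel₀ (pow_ne_zero 3 ht) h2
  rw [hrel', v.ord_mul ht hw.1, hw.2]
  simp

omit [CharZero K] in
/-- `r = 3`: where `t` is a unit, `j` is regular. -/
theorem ord_j_nonneg_of_t3_unit (hrel : j * t ^ 3 = (t + 27) * (t + 243) ^ 3) (ht : t ≠ 0)
    (h : v.ord t = 0) : 0 ≤ v.ord j := by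
  rcases eq_or_ne j 0 with rfl | hj
  · simp
  have ht_mem : t ∈ v.toValuationSubring :=
    Fermat.Agent.S24.A564.SO.Place_mem_of_ord_nonneg v h.ge
  have h27 : (27 : F) ∈ v.toValuationSubring := by
    have := v.algebraMap_mem' (27 : K)
    rwa [map_ofNat] at this
  have h243 : (243 : F) ∈ v.toValuationSubring := by
    have := v.algebraMap_mem' (243 : K)
    rwa [map_ofNat] at this
  have hmem : (t + 27) * (t + 243) ^ 3 ∈ v.toValuationSubring :=
    mul_mem (add_mem ht_mem h27) (pow_mem (add_mem ht_mem h243) 3)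
  have h1 := Fermat.Agent.S24.A564.SO.Place_ord_nonneg_of_mem v hmem
  rw [← hrel, v.ord_mul hj (pow_ne_zero 3 ht), ord_pow, h] at h1
  simpa using h1

/-- `r = 3`: `t` is a unit at `v` exactly when `j` is regular at `v`. -/
theorem ord_t3_eq_zero_iff (hrel : j * t ^ 3 = (t + 27) * (t + 243) ^ 3) (ht : t ≠ 0) :
    v.ord t = 0 ↔ 0 ≤ v.ord j := by
  refine ⟨ord_j_nonneg_of_t3_unit v hrel ht, fun hj => ?_⟩
  rcases lt_trichotomy (v.ord t) 0 with h | h | h
  · have := ord_j_of_t3_infty v hrel h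
    omega
  · exact h
  · have := ord_j_of_t3_zero v hrel h
    omega

end LevelThree

end Fermat.Agent.S18.CH04582
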