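import Fermat.Agent.S18.CH04582.TLine
import Fermat.Agent.S24.RiemannHurwitz

/-!
# S18 / CH0 (helper4582): the `t`-line of `X₀(2)`, `X₀(3)` — global consequences

For a function field `F / K` (`K` algebraically closed of characteristic zero), `j` transcendental with
`F / K(j)` finite, and `t : F` with `j t² = (t + 256)³` (resp. `j t³ = (t + 27)(t + 243)³`):

* `t ≠ 0`, `t` is transcendental, `j ∈ K(t)`, `F / K(t)` is finite;
* `[F : K(j)] = 3 [F : K(t)]` (resp. `4 [F : K(t)]`).
-/

set_option autoImplicit false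

namespace Fermat.Agent.S18.CH04582

open AlgebraicCurve IntermediateField Polynomial
open Fermat.Agent.S24

variable {K F : Type*} [Field K] [Field F] [Algebra K F]

/-- Finiteness over a larger intermediate field. -/
theorem finiteDimensional_of_le {E E' : IntermediateField K F} (h : E ≤ E')
    [FiniteDimensional E F] : FiniteDimensional E' F := by
  let _ : Algebra E E' := (IntermediateField.inclusion h).toRingHom.toAlgebra
  have : IsScalarTower E E' F := IsScalarTower.of_algebraMap_eq (fun x => rfl)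
  exact Module.Finite.of_restrictScalars_finite E E' F

/-- Over an algebraically closed field, an algebraic element of an extension field is a constant. -/
theorem exists_algebraMap_eq_of_isAlgebraic [IsAlgClosed K] {t : F} (ht : IsAlgebraic K t) :
    ∃ a : K, algebraMap K F a = t := by
  have hint : IsIntegral K t := ht.isIntegral
  have hdeg : (minpoly K t).degree = 1 :=
    IsAlgClosed.degree_eq_one_of_irreducible K (minpoly.irreducible hint)
  exact minpoly.mem_range_of_degree_eq_one K t hdeg

section LevelTwo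

variable {j t : F}

theorem t2_ne_zero [CharZero K] (hrel : j * t ^ 2 = (t + 256) ^ 3) : t ≠ 0 := by
  rintro rfl
  have h256 : (256 : F) = algebraMap K F 256 := (map_ofNat _ _).symm
  have : (256 : F) ^ 3 = 0 := by
    simpa using hrel.symm
  have h2 : (256 : F) = 0 := by simpa using this
  rw [h256] at h2
  have h3 : (256 : K) = 0 := (map_eq_zero (algebraMap K F)).mp h2
  norm_num at h3

theorem t2_transcendental [IsAlgClosed K] [CharZero K] (hj : Transcendental K j)
    (hrel : j * t ^ 2 = (t + 256) ^ 3) : Transcendental K t := by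
  intro halg
  obtain ⟨a, rfl⟩ := exists_algebraMap_eq_of_isAlgebraic halg
  have ha : algebraMap K F a ≠ 0 := t2_ne_zero (K := K) hrel
  have ha' : a ≠ 0 := fun h => ha (by rw [h, map_zero])
  apply hj
  have : j = algebraMap K F ((a + 256) ^ 3 / a ^ 2) := by
    rw [map_div₀, map_pow, map_pow, map_add, map_ofNat, eq_div_iff (pow_ne_zero 2 ha)]
    exact hrel
  rw [this]
  exact isAlgebraic_algebraMap _

theorem j_mem_adjoin_t2 [CharZero K] (hrel : j * t ^ 2 = (t + 256) ^ 3) : j ∈ K⟮t⟯ := by
  have ht : t ≠ 0 := t2_ne_zero (K := K) hrel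
  have : j = (t + 256) ^ 3 / t ^ 2 := by
    rw [eq_div_iff (pow_ne_zero 2 ht)]
    exact hrel
  rw [this]
  have htm : t ∈ K⟮t⟯ := mem_adjoin_simple_self K t
  exact div_mem (pow_mem (add_mem htm (ofNat_mem _ _)) 3) (pow_mem htm 2)

theorem finiteDimensional_adjoin_t2 [CharZero K]
    [FiniteDimensional K⟮j⟯ F] (hrel : j * t ^ 2 = (t + 256) ^ 3) : FiniteDimensional K⟮t⟯ F :=
  finiteDimensional_of_le (adjoin_simple_le_iff.mpr (j_mem_adjoin_t2 (K := K) hrel))

/-- `r = 2`: the places over `j = 0` are the places over `t = -256`. -/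
theorem placesOver_j_zero_eq_t2 [CharZero K] (hrel : j * t ^ 2 = (t + 256) ^ 3) :
    placesOver j (0 : K) = placesOver t (-256 : K) := by
  have ht : t ≠ 0 := t2_ne_zero (K := K) hrel
  have e256 : t - algebraMap K F (-256) = t + 256 := sub_neg_ofNat_aux 256
  ext v
  simp only [placesOver, Set.mem_ofPred_eq, map_zero, sub_zero]
  rw [e256]
  constructor
  · intro h
    have hj0 : j ≠ 0 := ne_zero_of_ord_pos v h
    have ht0 : v.ord t = 0 := (ord_t2_eq_zero_iff v hrel ht).mpr h.le
    have hne : t + 256 ≠ 0 := by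
      intro h0
      rw [h0] at hrel
      simp at hrel
      rcases hrel with h1 | h1
      · exact hj0 h1
      · exact ht h1
    have h1 := congrArg v.ord hrel
    rw [v.ord_mul hj0 (pow_ne_zero 2 ht), ord_pow, ord_pow, ht0] at h1
    push_cast at h1
    omega
  · intro h
    have := ord_j_of_t2_neg256 v hrel h
    omega

/-- **`r = 2`: `[F : K(j)] = 3 [F : K(t)]`.** -/
theorem finrank_adjoin_t2 [IsAlgClosed K] [CharZero K] (hj : Transcendental K j)
    [FiniteDimensional K⟮j⟯ F] (hrel : j * t ^ 2 = (t + 256) ^ 3) :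
    Module.finrank K⟮j⟯ F = 3 * Module.finrank K⟮t⟯ F := by
  have := finiteDimensional_adjoin_t2 (K := K) hrel
  have htr := t2_transcendental hj hrel
  have h1 := sum_ord_placesOver j hj (0 : K)
  have h2 := sum_ord_placesOver t htr (-256 : K)
  have h3 : ∑ᶠ v ∈ placesOver j (0 : K), v.ord (j - algebraMap K F 0) =
      ∑ᶠ v ∈ placesOver t (-256 : K), 3 * v.ord (t - algebraMap K F (-256)) := by
    refine finsum_mem_congr (placesOver_j_zero_eq_t2 hrel) fun v hv => ?_
    have e256 : t - algebraMap K F (-256) = t + 256 := sub_neg_ofNat_aux 256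
    have hv' : 0 < v.ord (t + 256) := by
      rw [← e256]
      exact hv
    rw [map_zero, sub_zero, e256]
    exact ord_j_of_t2_neg256 v hrel hv'
  rw [h3, ← mul_finsum_mem, h2] at h1
  exact_mod_cast h1.symm

end LevelTwo

section LevelThree

variable {j t : F}

theorem t3_ne_zero [CharZero K] (hrel : j * t ^ 3 = (t + 27) * (t + 243) ^ 3) : t ≠ 0 := by
  rintro rfl
  have h1 : (27 : F) * 243 ^ 3 = 0 := by
    simpa using hrel.symm
  have h2 : algebraMap K F (27 * 243 ^ 3) = 0 := by
    rw [map_mul, map_pow, map_ofNat, map_ofNat]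
    exact h1
  have h3 : (27 * 243 ^ 3 : K) = 0 := (map_eq_zero (algebraMap K F)).mp h2
  norm_num at h3

theorem t3_transcendental [IsAlgClosed K] [CharZero K] (hj : Transcendental K j)
    (hrel : j * t ^ 3 = (t + 27) * (t + 243) ^ 3) : Transcendental K t := by
  intro halg
  obtain ⟨a, rfl⟩ := exists_algebraMap_eq_of_isAlgebraic halg
  have ha : algebraMap K F a ≠ 0 := t3_ne_zero (K := K) hrel
  apply hj
  have : j = algebraMap K F ((a + 27) * (a + 243) ^ 3 / a ^ 3) := by
    rw [map_div₀, map_mul, map_pow, map_pow, map_add, map_add, map_ofNat, map_ofNat,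
      eq_div_iff (pow_ne_zero 3 ha)]
    exact hrel
  rw [this]
  exact isAlgebraic_algebraMap _

theorem j_mem_adjoin_t3 [CharZero K] (hrel : j * t ^ 3 = (t + 27) * (t + 243) ^ 3) :
    j ∈ K⟮t⟯ := by
  have ht : t ≠ 0 := t3_ne_zero (K := K) hrel
  have : j = (t + 27) * (t + 243) ^ 3 / t ^ 3 := by
    rw [eq_div_iff (pow_ne_zero 3 ht)]
    exact hrel
  rw [this]
  have htm : t ∈ K⟮t⟯ := mem_adjoin_simple_self K t
  exact div_mem (mul_mem (add_mem htm (ofNat_mem _ _)) (pow_mem (add_mem htm (ofNat_mem _ _)) 3))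
    (pow_mem htm 3)

theorem finiteDimensional_adjoin_t3 [CharZero K]
    [FiniteDimensional K⟮j⟯ F] (hrel : j * t ^ 3 = (t + 27) * (t + 243) ^ 3) :
    FiniteDimensional K⟮t⟯ F :=
  finiteDimensional_of_le (adjoin_simple_le_iff.mpr (j_mem_adjoin_t3 (K := K) hrel))

/-- `r = 3`: the places over `j = 0` are the places over `t = -27` and over `t = -243`. -/
theorem placesOver_j_zero_eq_t3 [CharZero K] (hrel : j * t ^ 3 = (t + 27) * (t + 243) ^ 3) :
    placesOver j (0 : K) = placesOver t (-27 : K) ∪ placesOver t (-243 : K) := by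
  have ht : t ≠ 0 := t3_ne_zero (K := K) hrel
  have e27 : t - algebraMap K F (-27) = t + 27 := sub_neg_ofNat_aux 27
  have e243 : t - algebraMap K F (-243) = t + 243 := sub_neg_ofNat_aux 243
  ext v
  simp only [placesOver, Set.mem_ofPred_eq, map_zero, sub_zero, Set.mem_union]
  rw [e27, e243]
  constructor
  · intro h
    have hj0 : j ≠ 0 := ne_zero_of_ord_pos v h
    have ht0 : v.ord t = 0 := (ord_t3_eq_zero_iff v hrel ht).mpr h.le
    have hne : (t + 27) * (t + 243) ^ 3 ≠ 0 := by
      rw [← hrel]
      exact mul_ne_zero hj0 (pow_ne_zero 3 ht)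
    have hne1 : t + 27 ≠ 0 := left_ne_zero_of_mul hne
    have hne2 : t + 243 ≠ 0 := fun h0 => right_ne_zero_of_mul hne (by rw [h0]; simp)
    have ht_mem : t ∈ v.toValuationSubring :=
      Fermat.Agent.S24.A564.SO.Place_mem_of_ord_nonneg v ht0.ge
    have h27 : (27 : F) ∈ v.toValuationSubring := by
      have := v.algebraMap_mem' (27 : K)
      rwa [map_ofNat] at this
    have h243 : (243 : F) ∈ v.toValuationSubring := by
      have := v.algebraMap_mem' (243 : K)
      rwa [map_ofNat] at this
    have hn1 := Fermat.Agent.S24.A564.SO.Place_ord_nonneg_of_mem v (add_mem ht_mem h27)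
    have hn2 := Fermat.Agent.S24.A564.SO.Place_ord_nonneg_of_mem v (add_mem ht_mem h243)
    have h1 := congrArg v.ord hrel
    rw [v.ord_mul hj0 (pow_ne_zero 3 ht), ord_pow, v.ord_mul hne1 (pow_ne_zero 3 hne2), ord_pow,
      ht0] at h1
    push_cast at h1
    by_contra hcon
    push Not at hcon
    omega
  · rintro (h | h)
    · have := ord_j_of_t3_neg27 v hrel h
      omega
    · have := ord_j_of_t3_neg243 v hrel h
      omega

/-- `r = 3`: the fibres over `t = -27` and `t = -243` are disjoint. -/
theorem disjoint_placesOver_t3 [CharZero K] :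
    Disjoint (placesOver t (-27 : K)) (placesOver t (-243 : K)) := by
  rw [Set.disjoint_left]
  intro v h1 h2
  have e243 : t - algebraMap K F (-243) = t + 243 := sub_neg_ofNat_aux 243
  have h3 := ord_aeval_eq_zero v h1 (X + C 243 : K[X]) (by simp; norm_num)
  simp only [map_add, aeval_X, aeval_C, map_ofNat] at h3
  have h2' : 0 < v.ord (t + 243) := by
    rw [← e243]
    exact h2
  omega

/-- **`r = 3`: `[F : K(j)] = 4 [F : K(t)]`.** -/
theorem finrank_adjoin_t3 [IsAlgClosed K] [CharZero K] (hj : Transcendental K j)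
    [FiniteDimensional K⟮j⟯ F] (hrel : j * t ^ 3 = (t + 27) * (t + 243) ^ 3) :
    Module.finrank K⟮j⟯ F = 4 * Module.finrank K⟮t⟯ F := by
  have := finiteDimensional_adjoin_t3 (K := K) hrel
  have htr := t3_transcendental hj hrel
  have e27 : t - algebraMap K F (-27) = t + 27 := sub_neg_ofNat_aux 27
  have e243 : t - algebraMap K F (-243) = t + 243 := sub_neg_ofNat_aux 243
  have h1 := sum_ord_placesOver j hj (0 : K)
  have h2 := sum_ord_placesOver t htr (-27 : K)
  have h3 := sum_ord_placesOver t htr (-243 : K)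
  have hf1 := finite_placesOver t htr (-27 : K)
  have hf2 := finite_placesOver t htr (-243 : K)
  rw [placesOver_j_zero_eq_t3 hrel, finsum_mem_union disjoint_placesOver_t3 hf1 hf2] at h1
  have h4 : ∑ᶠ v ∈ placesOver t (-27 : K), v.ord (j - algebraMap K F 0) =
      ∑ᶠ v ∈ placesOver t (-27 : K), v.ord (t - algebraMap K F (-27)) := by
    refine finsum_mem_congr rfl fun v hv => ?_
    have hv' : 0 < v.ord (t + 27) := by
      rw [← e27]
      exact hv
    rw [map_zero, sub_zero, e27]
    exact ord_j_of_t3_neg27 v hrel hv'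
  have h5 : ∑ᶠ v ∈ placesOver t (-243 : K), v.ord (j - algebraMap K F 0) =
      ∑ᶠ v ∈ placesOver t (-243 : K), 3 * v.ord (t - algebraMap K F (-243)) := by
    refine finsum_mem_congr rfl fun v hv => ?_
    have hv' : 0 < v.ord (t + 243) := by
      rw [← e243]
      exact hv
    rw [map_zero, sub_zero, e243]
    exact ord_j_of_t3_neg243 v hrel hv'
  rw [h4, h5, ← mul_finsum_mem, h2, h3] at h1
  have h6 : (Module.finrank K⟮j⟯ F : ℤ) = 4 * (Module.finrank K⟮t⟯ F : ℤ) := by
    rw [← h1]
    ring
  exact_mod_cast h6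

end LevelThree

end Fermat.Agent.S18.CH04582
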