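import Fermat.Agent.S18.TInt
import Fermat.Agent.S18.CH04582.LaurentChart

/-!
# S18 / CH0 (helper4582): bridge `Place` ⟹ `UnbranchedL` (Laurent chart), for CASE A of Theorem T

Companion of `Fermat.Agent.S18.unbranched_of_ord` (TInt.lean v0 of helper2926), same signature, for
the chart `K[x, 1/x]`; sorry-free on the frozen statements `rt_exists_divisor`,
`rt_isIntegral_of_ord_nonneg` of `RT.lean`.  The core (`unbranchedL_core`, `LaurentChart.lean`)
has no sorried import.
-/

set_option autoImplicit false

namespace Fermat.Agent.S18.CH04582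

open AlgebraicCurve IntermediateField Fermat.Agent.S18

variable {K F : Type*} [Field K] [Field F] [Algebra K F] [IsAlgClosed K]

/-- The zeros of `x` are finite in number (from `rt_exists_divisor`). -/
theorem finite_zeros_of_rt (x : F) (hx : Transcendental K x) [FiniteDimensional K⟮x⟯ F]
    [Algebra.IsSeparable K⟮x⟯ F] : {P : Place K F | 0 < P.ord x}.Finite := by
  have hx0 : x ≠ 0 := by
    rintro rfl
    exact hx isAlgebraic_zero
  obtain ⟨D, hD⟩ := rt_exists_divisor x hx x hx0
  refine Set.Finite.subset D.support.finite_toSet (fun P hP => ?_)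
  rw [Finset.mem_coe, Finsupp.mem_support_iff, hD P]
  have : 0 < P.ord x := hP
  omega

/-- If every place over `x = a` is unramified (`ord (x - a) = 1`), then `a` is not a branch value
of the chart `K[x, 1/x]`. -/
theorem unbranchedL_of_ord (x : F) (hx : Transcendental K x) [FiniteDimensional K⟮x⟯ F]
    [Algebra.IsSeparable K⟮x⟯ F] (a : K)
    (h : ∀ v : Place K F, 0 < v.ord (x - algebraMap K F a) → v.ord (x - algebraMap K F a) = 1) :
    UnbranchedL K x a :=
  fun z hz hz2 => unbranchedL_core x (finite_zeros_of_rt x hx)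
    (fun f hf => rt_isIntegral_of_ord_nonneg x hx f hf) a h z hz hz2

/-- Integrality over `K[x, 1/x]` in `Place` language. -/
theorem isIntegral_laurent_iff (x : F) (hx : Transcendental K x) [FiniteDimensional K⟮x⟯ F]
    [Algebra.IsSeparable K⟮x⟯ F] (w : F) :
    IsIntegral (Algebra.adjoin K {x, x⁻¹}) w ↔ ∀ P : Place K F, P.ord x = 0 → 0 ≤ P.ord w :=
  ⟨fun hw P hP => ord_nonneg_of_isIntegral_laurent x P hP w hw,
   fun hw => isIntegral_laurent_of_ord_nonneg x (finite_zeros_of_rt x hx)
    (fun f hf => rt_isIntegral_of_ord_nonneg x hx f hf) w hw⟩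

end Fermat.Agent.S18.CH04582
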